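import Fermat.Agent.S14.SecondIneq.Defs
import Fermat.Agent.S14.SecondIneq.Units.Group
import Fermat.Agent.S14.SecondIneq.Units.Free
import Fermat.Agent.S14.SecondIneq.Units.Base
import Fermat.Agent.S14.SecondIneq.Units.Step

/-!
# S14 / SecondIneq: the `S`-unit theorem modulo `p`-th powers  (block `Units`, owner helper7)

`E_S / E_S^p` has order `p ^ (|S| + r)`, `r` = number of infinite places, when `ζ_p ∈ F`.
(`E_S ≅ μ(F) × ℤ^(|S| + r - 1)` by Dirichlet's unit theorem and finiteness of the class group.)
STATEMENT FROZEN (owner of the statement: helper1).  Sub-files go to `SecondIneq/Units/`.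
-/

set_option autoImplicit false

namespace Fermat.Agent.S14.SecondIneq

open NumberField IsDedekindDomain

/-- Base case `S = ∅` (Dirichlet's unit theorem): `[E_∅ : E_∅ ∩ Fˣᵖ] = p ^ r`. -/
theorem Units.sunit_index_empty {p : ℕ} [Fact p.Prime] (F : Type*) [Field F] [NumberField F]
    (hζ : ∃ ζ : F, IsPrimitiveRoot ζ p) :
    (PthPow p F).relIndex (SU F ∅) = p ^ Fintype.card (InfinitePlace F) := by
  have hp : p.Prime := Fact.out
  rw [Units.relIndex_SU_empty p hp.pos F,
    Units.index_range_pow_of_exists_unique hp (NumberField.Units.torsion F)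
      (Units.dvd_card_torsion F hζ) (NumberField.Units.fundSystem F)
      (NumberField.Units.exist_unique_eq_mul_prod F)]
  congr 1
  have hpos : 0 < Fintype.card (InfinitePlace F) := Fintype.card_pos
  rw [NumberField.Units.rank]
  omega

/-- `[E_S : E_S ∩ Fˣᵖ] = p ^ (|S| + r)`. -/
theorem sunit_index {p : ℕ} [Fact p.Prime] (F : Type*) [Field F] [NumberField F]
    (hζ : ∃ ζ : F, IsPrimitiveRoot ζ p) (S : Finset (HeightOneSpectrum (𝓞 F))) :
    (PthPow p F).relIndex (SU F S) = p ^ (S.card + Fintype.card (InfinitePlace F)) := by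
  classical
  have hp : p.Prime := Fact.out
  induction S using Finset.induction_on with
  | empty =>
    rw [Finset.card_empty, zero_add]
    exact Units.sunit_index_empty F hζ
  | insert v S hv ih =>
    have hv' : v ∉ (S : Set (HeightOneSpectrum (𝓞 F))) := by simpa using hv
    have key := Units.relIndex_range_pow_eq_mul hp.pos
      ((insert v (S : Set (HeightOneSpectrum (𝓞 F)))).unit F)
      (v.valuationOfNeZero : Fˣ →* Multiplicative ℤ)
      (Units.exists_mem_unit_insert F (S : Set (HeightOneSpectrum (𝓞 F))) v)
      (fun t ht => Units.unit_saturated F _ hp.pos t ht)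
    rw [Units.unit_insert_inf_ker F (S : Set (HeightOneSpectrum (𝓞 F))) v hv'] at key
    have e : SU F (insert v S) = (insert v (S : Set (HeightOneSpectrum (𝓞 F)))).unit F := by
      rw [SU, Finset.coe_insert]
    have ih' : (powMonoidHom p : Fˣ →* Fˣ).range.relIndex
        ((S : Set (HeightOneSpectrum (𝓞 F))).unit F) =
        p ^ (S.card + Fintype.card (InfinitePlace F)) := ih
    rw [e]
    show (powMonoidHom p : Fˣ →* Fˣ).range.relIndex _ = _
    rw [key, ih', Finset.card_insert_of_notMem hv]
    ring

end Fermat.Agent.S14.SecondIneq
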