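import Fermat.Agent.S14.SecondIneq.BasicVal

/-!
# S14 / SecondIneq: `S`-units are quotients of `S`-supported integers (finiteness of the class
group); a bound on the exponents `n` with `x ∈ v ^ n`.
STATEMENTS FROZEN.
-/

set_option autoImplicit false

namespace Fermat.Agent.S14.SecondIneq

open NumberField IsDedekindDomain

variable {F : Type*} [Field F] [NumberField F]

namespace BasicSUAux

/-- Some power of the prime `v` is principal (finiteness of the class group): there is a nonzero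
element of `v` lying in no other prime. -/
theorem exists_generator (v : HeightOneSpectrum (𝓞 F)) :
    ∃ π : 𝓞 F, π ≠ 0 ∧ π ∈ v.asIdeal ∧
      ∀ w : HeightOneSpectrum (𝓞 F), w ≠ v → π ∉ w.asIdeal := by
  classical
  have hv0 : v.asIdeal ∈ nonZeroDivisors (Ideal (𝓞 F)) :=
    mem_nonZeroDivisors_of_ne_zero v.ne_bot
  have hpos : 0 < Fintype.card (ClassGroup (𝓞 F)) := Fintype.card_pos
  have hpow : v.asIdeal ^ Fintype.card (ClassGroup (𝓞 F)) ∈ nonZeroDivisors (Ideal (𝓞 F)) :=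
    pow_mem hv0 _
  have h1 : ClassGroup.mk0 (⟨v.asIdeal ^ Fintype.card (ClassGroup (𝓞 F)), hpow⟩ :
      nonZeroDivisors (Ideal (𝓞 F))) = 1 := by
    have h2 : (⟨v.asIdeal ^ Fintype.card (ClassGroup (𝓞 F)), hpow⟩ :
        nonZeroDivisors (Ideal (𝓞 F))) =
        (⟨v.asIdeal, hv0⟩ : nonZeroDivisors (Ideal (𝓞 F))) ^ Fintype.card (ClassGroup (𝓞 F)) :=
      rfl
    rw [h2, map_pow]
    exact pow_card_eq_one
  have hprinc : (v.asIdeal ^ Fintype.card (ClassGroup (𝓞 F))).IsPrincipal :=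
    (ClassGroup.mk0_eq_one_iff hpow).mp h1
  generalize Fintype.card (ClassGroup (𝓞 F)) = h at hpos hprinc
  obtain ⟨π, hπ⟩ := hprinc.principal
  have hπmem : π ∈ v.asIdeal ^ h := by
    rw [hπ]
    exact Submodule.mem_span_singleton_self π
  refine ⟨π, ?_, ?_, ?_⟩
  · rintro rfl
    have h3 : v.asIdeal ^ h = ⊥ := by
      rw [hπ]
      exact Submodule.span_zero_singleton (𝓞 F)
    exact v.ne_bot (pow_eq_zero_iff hpos.ne' |>.mp h3)
  · exact Ideal.pow_le_self hpos.ne' hπmem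
  · intro w hw hmem
    apply hw
    have hle : v.asIdeal ^ h ≤ w.asIdeal := by
      rw [hπ]
      exact (Submodule.span_singleton_le_iff_mem _ _).mpr hmem
    have hle' : v.asIdeal ≤ w.asIdeal := w.isPrime.le_of_pow_le hle
    have heq : v.asIdeal = w.asIdeal := v.isMaximal.eq_of_le w.isPrime.ne_top hle'
    exact HeightOneSpectrum.ext heq.symm

/-- An element of `Fˣ` with nonnegative order at every prime is an integer. -/
theorem exists_int_of_ord_nonneg (t : Fˣ)
    (h : ∀ v : HeightOneSpectrum (𝓞 F), 0 ≤ ord v t) : ∃ y : 𝓞 F, (t : F) = (y : F) := by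
  have hmem : (t : F) ∈ (algebraMap (𝓞 F) F).range := by
    apply HeightOneSpectrum.mem_integers_of_valuation_le_one
    intro v
    rw [← HeightOneSpectrum.valuationOfNeZero_eq, ← WithZero.coe_one, WithZero.coe_le_coe]
    have hv := h v
    unfold ord at hv
    have hv' : Multiplicative.toAdd (v.valuationOfNeZero t) ≤ 0 := by omega
    exact hv'
  obtain ⟨y, hy⟩ := hmem
  exact ⟨y, hy.symm⟩

end BasicSUAux

/-- An `S`-unit is `y / z` with `y, z` nonzero integers all of whose prime divisors lie in `S`. -/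
theorem exists_int_quot_of_mem_SU (S : Finset (HeightOneSpectrum (𝓞 F))) (x : Fˣ)
    (hx : x ∈ SU F S) :
    ∃ y z : 𝓞 F, y ≠ 0 ∧ z ≠ 0 ∧ (x : F) * (z : F) = (y : F) ∧
      (∀ v : HeightOneSpectrum (𝓞 F), v ∉ S → y ∉ v.asIdeal) ∧
      (∀ v : HeightOneSpectrum (𝓞 F), v ∉ S → z ∉ v.asIdeal) := by
  classical
  have hx' := (mem_SU_iff S x).mp hx
  choose π hπ0 hπmem hπnot using
    fun v : HeightOneSpectrum (𝓞 F) => BasicSUAux.exists_generator v
  have hP0 : (∏ v ∈ S, π v) ≠ 0 := Finset.prod_ne_zero_iff.mpr (fun v _ => hπ0 v)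
  have hPmem : ∀ v ∈ S, (∏ v ∈ S, π v) ∈ v.asIdeal := fun v hv =>
    Ideal.mem_of_dvd _ (Finset.dvd_prod_of_mem π hv) (hπmem v)
  have hPnot : ∀ v : HeightOneSpectrum (𝓞 F), v ∉ S → (∏ v ∈ S, π v) ∉ v.asIdeal := by
    intro v hv hmem
    obtain ⟨u, hu, hmem'⟩ := (v.isPrime.prod_mem_iff).mp hmem
    by_cases huv : v = u
    · exact hv (huv ▸ hu)
    · exact hπnot u v huv hmem'
  generalize (∏ v ∈ S, π v) = P at hP0 hPmem hPnot
  obtain ⟨Pu, hPu⟩ := exists_unit_of_int P hP0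
  have hordP_S : ∀ v ∈ S, 1 ≤ ord v Pu := by
    intro v hv
    have h1 := (le_ord_iff_of_int v Pu P hPu 1).mpr (by rw [pow_one]; exact hPmem v hv)
    exact_mod_cast h1
  have hordP_notS : ∀ v : HeightOneSpectrum (𝓞 F), v ∉ S → ord v Pu = 0 := fun v hv =>
    (ord_eq_zero_iff_of_int v Pu P hPu).mpr (hPnot v hv)
  obtain ⟨N, hN⟩ : ∃ N : ℕ, ∀ v ∈ S, (ord v x).natAbs ≤ N :=
    ⟨∑ v ∈ S, (ord v x).natAbs, fun v hv =>
      Finset.single_le_sum (f := fun v => (ord v x).natAbs) (fun _ _ => Nat.zero_le _) hv⟩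
  have hord : ∀ v : HeightOneSpectrum (𝓞 F), 0 ≤ ord v (x * Pu ^ N) := by
    intro v
    rw [ord_mul, ord_pow]
    by_cases hv : v ∈ S
    · have h1 := hordP_S v hv
      have h2 := hN v hv
      have h4 : (N : ℤ) ≤ N * ord v Pu := by nlinarith
      omega
    · rw [hx' v hv, hordP_notS v hv]
      simp
  obtain ⟨y, hy⟩ := BasicSUAux.exists_int_of_ord_nonneg (x * Pu ^ N) hord
  refine ⟨y, P ^ N, ?_, pow_ne_zero N hP0, ?_, ?_, ?_⟩
  · rintro rfl
    exact (x * Pu ^ N).ne_zero (by rw [hy]; simp)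
  · rw [← hy, Units.val_mul, Units.val_pow_eq_pow_val, hPu]
    exact congrArg (fun t => (x : F) * t) (map_pow (algebraMap (𝓞 F) F) P N)
  · intro v hv
    refine (ord_eq_zero_iff_of_int v (x * Pu ^ N) y hy).mp ?_
    rw [ord_mul, ord_pow, hx' v hv, hordP_notS v hv]
    simp
  · intro v hv hmem
    exact hPnot v hv (v.isPrime.mem_of_pow_mem N hmem)

end Fermat.Agent.S14.SecondIneq
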