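import Fermat.Agent.S14.SecondIneq.Defs
import Fermat.Agent.S14.Kummer.API

/-!
# S14 / SecondIneq: Kummer theory requirements (provided by helper16's theory `Kummer`)

The five statements of Kummer theory of exponent `p` used by the Chevalley argument.
They are delivered by `Fermat/Agent/S14/Kummer/` (helper16).  STATEMENTS FROZEN for T6 workers.
-/

set_option autoImplicit false

namespace Fermat.Agent.S14.SecondIneq.KummerReq

open NumberField

universe u

variable {p : ℕ} [Fact p.Prime]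

/-- K1: `F(x^{1/p})` exists as a number field, Galois of degree `p` over `F`. -/
theorem K1 (hp : p ≠ 2) (F : Type u) [Field F] [NumberField F]
    (ζ : 𝓞 F) (hζ : IsPrimitiveRoot ζ p) (x : 𝓞 F) (hx : ∀ c : F, c ^ p ≠ (x : F)) :
    ∃ (N : Type u) (_ : Field N) (_ : NumberField N) (_ : Algebra F N),
      IsGalois F N ∧ Module.finrank F N = p ∧ ∃ β : N, β ^ p = algebraMap F N (x : F) :=
  Kummer.exists_kummer_extension F ζ hζ x hx

/-- K2: a Galois extension of degree `p` is `F(a^{1/p})` with `a` integral, not a `p`-th power. -/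
theorem K2 (hp : p ≠ 2) (F M : Type*) [Field F] [NumberField F] [Field M] [NumberField M]
    [Algebra F M] [IsGalois F M] (ζ : 𝓞 F) (hζ : IsPrimitiveRoot ζ p)
    (hdeg : Module.finrank F M = p) :
    ∃ (a : 𝓞 F) (α : M), α ^ p = algebraMap F M (a : F) ∧ ∀ c : F, c ^ p ≠ (a : F) :=
  Kummer.exists_generator F ζ hζ M hdeg

/-- K3: the elements of `F` which are `p`-th powers in `M = F(a^{1/p})` are `a ^ i * c ^ p`. -/
theorem K3 (hp : p ≠ 2) (F M : Type*) [Field F] [NumberField F] [Field M] [NumberField M]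
    [Algebra F M] [IsGalois F M] (ζ : 𝓞 F) (hζ : IsPrimitiveRoot ζ p)
    (hdeg : Module.finrank F M = p) (a : F) (α : M) (hα : α ^ p = algebraMap F M a)
    (ha : ∀ c : F, c ^ p ≠ a) (u : F) (hu : ∃ β : M, β ^ p = algebraMap F M u) :
    ∃ (i : ℕ) (c : F), u = a ^ i * c ^ p :=
  Kummer.pow_mem_iff F ζ hζ M hdeg a α hα ha u hu

/-- K4a: `F(x^{1/p})/F` is unramified above every prime `w ∤ p x`. -/
theorem K4a (hp : p ≠ 2) (F N : Type*) [Field F] [NumberField F] [Field N] [NumberField N]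
    [Algebra F N] [IsGalois F N] (ζ : 𝓞 F) (hζ : IsPrimitiveRoot ζ p)
    (hdeg : Module.finrank F N = p) (x : 𝓞 F) (hx : ∀ c : F, c ^ p ≠ (x : F))
    (β : N) (hβ : β ^ p = algebraMap F N (x : F))
    (w : Ideal (𝓞 F)) (hw : w.IsPrime) (hw0 : w ≠ ⊥) (hpw : ((p : ℕ) : 𝓞 F) ∉ w) (hxw : x ∉ w)
    (Q : Ideal (𝓞 N)) (hQ : Q.IsPrime) (hQw : Q.LiesOver w) : UnramifiedAt F N Q :=
  Kummer.unramifiedAt F ζ hζ N hdeg x hx β hβ w hw hw0 hpw hxw Q hQ hQw

/-- K46: if `x ∉ v` is a `p`-th power modulo `v ^ n` with `n > p · v(1 - ζ)` (for `v ∤ p`: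
`n = 1`), then `v` splits completely in `F(x^{1/p})`. -/
theorem K46 (hp : p ≠ 2) (F N : Type*) [Field F] [NumberField F] [Field N] [NumberField N]
    [Algebra F N] [IsGalois F N] (ζ : 𝓞 F) (hζ : IsPrimitiveRoot ζ p)
    (hdeg : Module.finrank F N = p) (x : 𝓞 F) (hx : ∀ c : F, c ^ p ≠ (x : F))
    (β : N) (hβ : β ^ p = algebraMap F N (x : F))
    (v : Ideal (𝓞 F)) (hv : v.IsPrime) (hv0 : v ≠ ⊥) (n : ℕ) (hn : (1 - ζ) ^ p ∉ v ^ n)
    (c : 𝓞 F) (hxv : x ∉ v) (hc : x - c ^ p ∈ v ^ n) : SplitsCompletely F N v :=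
  Kummer.splitsCompletely F ζ hζ N hdeg x hx β hβ v hv hv0 n hn c hxv hc

end Fermat.Agent.S14.SecondIneq.KummerReq
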