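import Fermat.Agent.S14.SecondIneq.BasicLp
import Fermat.Agent.S14.SecondIneq.BasicSU
import Fermat.Agent.S14.SecondIneq.KummerReq
import Fermat.Agent.S14.Iface.FirstInequality
import Fermat.Agent.S14.Frob.API

/-!
# S14 / SecondIneq: "Claim 2" — an `(S ∪ T)`-unit which is a local `p`-th power at all `v ∈ S`
is a `p`-th power.   STATEMENT FROZEN.
-/

set_option autoImplicit false

namespace Fermat.Agent.S14.SecondIneq

open NumberField IsDedekindDomain

universe u

namespace Claim2Aux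

/-- If `a` is not a `p`-th power and `u = a * s ^ p` with `s ≠ 0`, then `u` is not a `p`-th
power. -/
theorem not_pow_of_eq_mul_pow {F : Type*} [Field F] {p : ℕ} {a u s : F}
    (ha : ∀ c : F, c ^ p ≠ a) (hs : s ≠ 0) (hu : u = a * s ^ p) : ∀ c : F, c ^ p ≠ u := by
  intro c hc
  apply ha (c / s)
  have hsp : s ^ p ≠ 0 := pow_ne_zero p hs
  rw [div_pow, hc, hu, mul_div_assoc, div_self hsp, mul_one]

/-- If `β ^ p = a` and `u = a * s ^ p`, then `(β * s) ^ p = u`. -/
theorem root_mul_pow {F N : Type*} [Field F] [Field N] [Algebra F N] {p : ℕ} {a u s : F} {β : N}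
    (hβ : β ^ p = algebraMap F N a) (hu : u = a * s ^ p) :
    (β * algebraMap F N s) ^ p = algebraMap F N u := by
  rw [mul_pow, hβ, hu, map_mul, map_pow]

end Claim2Aux

/-- Claim 2.  `S ⊇ {v | p}`, every prime `q ∉ S` times an `S`-supported ideal is principal,
`T` disjoint from `S` with the covering property, `n > p · v(1 - ζ)` for `v ∈ S`.
If `x` is an `(S ∪ T)`-unit and a local `p`-th power (precision `n`) at every `v ∈ S`, then `x` is a
`p`-th power.  (Otherwise `F(x^{1/p})/F` is cyclic of degree `p`, split at `S`, unramified outside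
`T`; the function `e` given by the first inequality with `R = T` vanishes at all primes.) -/
theorem claim2 {p : ℕ} [Fact p.Prime] (hp : p ≠ 2) (F : Type u) [Field F] [NumberField F]
    [DecidableEq (HeightOneSpectrum (𝓞 F))]
    (ζ : 𝓞 F) (hζ : IsPrimitiveRoot ζ p) (S T : Finset (HeightOneSpectrum (𝓞 F)))
    (hdisj : Disjoint T S)
    (hSp : ∀ v : HeightOneSpectrum (𝓞 F), ((p : ℕ) : 𝓞 F) ∈ v.asIdeal → v ∈ S)
    (hgen : ∀ q : HeightOneSpectrum (𝓞 F), q ∉ S →
      ∃ y : 𝓞 F, y ∈ q.asIdeal ∧ y ∉ q.asIdeal ^ 2 ∧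
        ∀ v : HeightOneSpectrum (𝓞 F), v ∉ S → v ≠ q → y ∉ v.asIdeal)
    (hcov : Cover p F S T) (n : ℕ) (hn : ∀ v ∈ S, (1 - ζ) ^ p ∉ v.asIdeal ^ n)
    (x : Fˣ) (hx : x ∈ SU F (S ∪ T)) (hloc : ∀ v ∈ S, x ∈ Lp p F v n) : x ∈ PthPow p F := by
  classical
  by_contra hxp
  have hp0 : 0 < p := (Fact.out : p.Prime).pos
  -- Step 1: an integral representative `x₀ = x * b ^ p`, not a `p`-th power
  obtain ⟨x₀, b, hb0, hx₀0, hxb⟩ := exists_int_mul_pow p x
  have hbF : (b : F) ≠ 0 := RingOfIntegers.coe_ne_zero_iff.mpr hb0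
  have hbpF : (b : F) ^ p ≠ 0 := pow_ne_zero p hbF
  have hx₀ : ∀ c : F, c ^ p ≠ (x₀ : F) := by
    intro c hc
    apply hxp
    rw [mem_PthPow_iff]
    have hc0 : c ≠ 0 := by
      rintro rfl
      rw [zero_pow hp0.ne'] at hc
      exact hx₀0 (RingOfIntegers.coe_eq_zero_iff.mp hc.symm)
    refine ⟨Units.mk0 (c / b) (div_ne_zero hc0 hbF), ?_⟩
    ext
    rw [Units.val_pow_eq_pow_val, Units.val_mk0, div_pow, hc, ← hxb, mul_div_assoc,
      div_self hbpF, mul_one]
  -- Step 2: the Kummer extension `N = F(x₀^{1/p})`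
  obtain ⟨N, _, _, _, hGal, hdeg, β, hβ⟩ := KummerReq.K1 hp F ζ hζ x₀ hx₀
  have hGalI : IsGalois F N := hGal
  -- Step 3: the primes of `S` split completely in `N`
  have hsplit : ∀ v ∈ S, SplitsCompletely F N v.asIdeal := by
    intro v hv
    obtain ⟨t, u, ⟨hxv, c, hc⟩, htu⟩ := hloc v hv
    have hu : (u : F) = (x₀ : F) * ((t : F) / (b : F)) ^ p := by
      rw [← htu, ← hxb, Units.val_mul, Units.val_pow_eq_pow_val, div_pow, mul_assoc,
        mul_div_cancel₀ _ hbpF]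
    exact KummerReq.K46 hp F N ζ hζ hdeg u
      (Claim2Aux.not_pow_of_eq_mul_pow hx₀ (div_ne_zero t.ne_zero hbF) hu)
      (β * algebraMap F N ((t : F) / (b : F))) (Claim2Aux.root_mul_pow hβ hu)
      v.asIdeal v.isPrime v.ne_bot n (hn v hv) c hxv hc
  -- Step 4: `N / F` is unramified outside `T`
  let R : Finset (Ideal (𝓞 F)) := T.image (fun w => w.asIdeal)
  have hRmem : ∀ q : HeightOneSpectrum (𝓞 F), q.asIdeal ∈ R ↔ q ∈ T := by
    intro q
    constructor
    · intro h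
      obtain ⟨w, hw, hwq⟩ := Finset.mem_image.mp h
      have hwq' : w = q := HeightOneSpectrum.ext hwq
      exact hwq' ▸ hw
    · intro h
      exact Finset.mem_image_of_mem _ h
  have hTS : ∀ w ∈ T, w ∉ S := fun w hw hS => Finset.disjoint_left.mp hdisj hw hS
  have hR : ∀ w ∈ R, w.IsPrime ∧ w ≠ ⊥ ∧ ((p : ℕ) : 𝓞 F) ∉ w := by
    intro w hw
    obtain ⟨w', hw', rfl⟩ := Finset.mem_image.mp hw
    exact ⟨w'.isPrime, w'.ne_bot, fun h => hTS w' hw' (hSp w' h)⟩
  have hram : ∀ Q : Ideal (𝓞 N), Q.IsPrime → Q ≠ ⊥ → Q.under (𝓞 F) ∉ R →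
      UnramifiedAt F N Q := by
    intro Q hQ hQ0 hQR
    have hq₀p : (Q.under (𝓞 F)).IsPrime := hQ.under (𝓞 F)
    have hq₀0 : Q.under (𝓞 F) ≠ ⊥ := Ideal.under_ne_bot (𝓞 F) hQ0
    let q : HeightOneSpectrum (𝓞 F) := ⟨Q.under (𝓞 F), hq₀p, hq₀0⟩
    have hqT : q ∉ T := fun h => hQR ((hRmem q).mpr h)
    by_cases hqS : q ∈ S
    · exact Frob.unramifiedAt_of_splitsCompletely F N (Q.under (𝓞 F)) (hsplit q hqS) Q hQ ⟨rfl⟩
    · have hqST : q ∉ S ∪ T := by
        rw [Finset.mem_union, not_or]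
        exact ⟨hqS, hqT⟩
      have hord : ord q x = 0 := (mem_SU_iff (S ∪ T) x).mp hx q hqST
      obtain ⟨y, z, hy, hz, hxz⟩ := exists_int_quot_of_ord_eq_zero q x hord
      have hz0 : z ≠ 0 := fun h => hz (h ▸ q.asIdeal.zero_mem)
      have hzF : (z : F) ≠ 0 := RingOfIntegers.coe_ne_zero_iff.mpr hz0
      have hpq : ((p : ℕ) : 𝓞 F) ∉ Q.under (𝓞 F) := fun h => hqS (hSp q h)
      have huq : y * z ^ (p - 1) ∉ Q.under (𝓞 F) := by
        intro h
        rcases hq₀p.mem_or_mem h with h | h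
        · exact hy h
        · exact hz (hq₀p.mem_of_pow_mem _ h)
      have hu : ((y * z ^ (p - 1) : 𝓞 F) : F) = (x₀ : F) * ((z : F) / (b : F)) ^ p := by
        have hpp : (z : F) ^ p = (z : F) * (z : F) ^ (p - 1) := by
          rw [← pow_succ', Nat.sub_add_cancel hp0]
        have h1 : ((y * z ^ (p - 1) : 𝓞 F) : F) = (y : F) * (z : F) ^ (p - 1) := by
          simp only [RingOfIntegers.coe_eq_algebraMap, map_mul, map_pow]
        rw [h1, ← hxz, ← hxb, div_pow, hpp, mul_assoc (x : F) ((b : F) ^ p),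
          mul_div_cancel₀ _ hbpF, mul_assoc]
      exact KummerReq.K4a hp F N ζ hζ hdeg (y * z ^ (p - 1))
        (Claim2Aux.not_pow_of_eq_mul_pow hx₀ (div_ne_zero hzF hbF) hu)
        (β * algebraMap F N ((z : F) / (b : F))) (Claim2Aux.root_mul_pow hβ hu)
        (Q.under (𝓞 F)) hq₀p hq₀0 hpq huq Q hQ ⟨rfl⟩
  -- Step 5: the first inequality
  have hζF : IsPrimitiveRoot (ζ : F) p := hζ.map_of_injective RingOfIntegers.coe_injective
  obtain ⟨e, ⟨q₁, hq₁p, hq₁0, hq₁R, heq₁⟩, hB, hC⟩ :=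
    firstInequality hp F N ⟨(ζ : F), hζF⟩ hdeg R hR hram
  -- Step 6: `e` vanishes at every prime outside `T`
  apply heq₁
  let q : HeightOneSpectrum (𝓞 F) := ⟨q₁, hq₁p, hq₁0⟩
  have hqT : q ∉ T := fun h => hq₁R ((hRmem q).mpr h)
  have heS : ∀ v ∈ S, e v.asIdeal = 0 := by
    intro v hv
    exact hB v.asIdeal v.isPrime v.ne_bot (fun h => hTS v ((hRmem v).mp h) hv) (hsplit v hv)
  by_cases hqS : q ∈ S
  · exact heS q hqS
  · obtain ⟨y, hyq, hyq2, hyv⟩ := hgen q hqS
    have hy0 : y ≠ 0 := by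
      rintro rfl
      exact hyq2 (Ideal.zero_mem _)
    have hyT : ∀ w ∈ T, y ∉ w.asIdeal := fun w hw =>
      hyv w (hTS w hw) (fun h => hqT (h ▸ hw))
    obtain ⟨u, hu0, huS, huT⟩ := hcov y hyT
    have huy0 : u * y ≠ 0 := mul_ne_zero hu0 hy0
    have hCuy : principalSum F e (u * y) = 0 := by
      apply hC (u * y) huy0
      intro w hw
      obtain ⟨w', hw', rfl⟩ := Finset.mem_image.mp hw
      refine ⟨?_, huT w' hw'⟩
      intro h
      rcases w'.isPrime.mem_or_mem h with h | h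
      · exact huS w' (hTS w' hw') h
      · exact hyT w' hw' h
    obtain ⟨xu, hxu⟩ := exists_unit_of_int u hu0
    obtain ⟨xy, hxy⟩ := exists_unit_of_int y hy0
    have hxuy : ((xu * xy : Fˣ) : F) = ((u * y : 𝓞 F) : F) := by
      rw [Units.val_mul, hxu, hxy]
      simp only [RingOfIntegers.coe_eq_algebraMap, map_mul]
    have hsum := principalSum_eq_sum_ord e (xu * xy) (u * y) hxuy (insert q S) (by
      intro v hv h
      rw [Finset.mem_insert, not_or] at hv
      rcases v.isPrime.mem_or_mem h with h | h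
      · exact huS v hv.2 h
      · exact hyv v hv.2 hv.1 h)
    rw [hCuy, Finset.sum_insert hqS] at hsum
    have hS0 : ∑ v ∈ S, ((ord v (xu * xy) : ℤ) : ZMod p) * e v.asIdeal = 0 :=
      Finset.sum_eq_zero (fun v hv => by rw [heS v hv, mul_zero])
    have hordu : ord q xu = 0 := (ord_eq_zero_iff_of_int q xu u hxu).mpr (huS q hqS)
    have hordy : ord q xy = 1 := by
      have h1 : (1 : ℤ) ≤ ord q xy := by
        have h1' := (le_ord_iff_of_int q xy y hxy 1).mpr (by rw [pow_one]; exact hyq)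
        exact_mod_cast h1'
      have h2 : ¬ (2 : ℤ) ≤ ord q xy := by
        intro h
        exact hyq2 ((le_ord_iff_of_int q xy y hxy 2).mp (by exact_mod_cast h))
      omega
    rw [hS0, add_zero, ord_mul, hordu, hordy, zero_add, Int.cast_one, one_mul] at hsum
    exact hsum.symm

end Fermat.Agent.S14.SecondIneq
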