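import Mathlib

/-!
# S14 / SecondIneq: abstract (commutative) group theory — the abstract count
STATEMENTS FROZEN.  No number theory here.
-/

set_option autoImplicit false

namespace Fermat.Agent.S14.SecondIneq

/-- The abstract count behind Chevalley's argument: `U` with `[U : U ∩ Gᵖ] = p ^ a`, a
homomorphism `φ` to a finite group, `K₀ ≤ U ∩ ker φ` consisting of `p`-th powers and of index
at most `p ^ b` in `U ∩ ker φ`.  Then `φ(U)` has at least `p ^ (a - b)` elements. -/
theorem abs_count {G : Type*} [CommGroup G] {A : Type*} [CommGroup A] [Finite A] (p a b : ℕ)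
    (hp : 0 < p) (U K₀ : Subgroup G) (φ : G →* A)
    (h1 : K₀ ≤ U ⊓ φ.ker)
    (h2 : K₀ ≤ (powMonoidHom p : G →* G).range)
    (h3 : ((powMonoidHom p : G →* G).range).relIndex U = p ^ a)
    (h4 : K₀.relIndex (U ⊓ φ.ker) ≠ 0 ∧ K₀.relIndex (U ⊓ φ.ker) ≤ p ^ b) :
    p ^ a ≤ p ^ b * Nat.card (U.map φ) := by
  have _hp := hp
  have hmul : K₀.relIndex (U ⊓ φ.ker) * (U ⊓ φ.ker).relIndex U = K₀.relIndex U :=
    Subgroup.relIndex_mul_relIndex K₀ (U ⊓ φ.ker) U h1 inf_le_left
  have hker : (U ⊓ φ.ker).relIndex U = Nat.card (U.map φ) := by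
    rw [Subgroup.inf_relIndex_left, Subgroup.relIndex_ker]
  have hcard : 0 < Nat.card (U.map φ) := Nat.card_pos
  have hdvd : ((powMonoidHom p : G →* G).range).relIndex U ∣ K₀.relIndex U :=
    Subgroup.relIndex_dvd_of_le_left U h2
  have hne : K₀.relIndex U ≠ 0 := by
    rw [← hmul, hker]
    exact Nat.mul_ne_zero h4.1 hcard.ne'
  calc p ^ a = ((powMonoidHom p : G →* G).range).relIndex U := h3.symm
    _ ≤ K₀.relIndex U := Nat.le_of_dvd (Nat.pos_of_ne_zero hne) hdvd
    _ = K₀.relIndex (U ⊓ φ.ker) * Nat.card (U.map φ) := by rw [← hmul, hker]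
    _ ≤ p ^ b * Nat.card (U.map φ) := Nat.mul_le_mul_right _ h4.2

end Fermat.Agent.S14.SecondIneq
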