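import Mathlib

/-!
# S14 / SecondIneq: abstract (commutative) group theory — relative index lemmas
STATEMENTS FROZEN.  No number theory here.
-/

set_option autoImplicit false

namespace Fermat.Agent.S14.SecondIneq

/-- If `H ≤ K`, and `L` has the same (finite) relative index in `H` and in `K`, then
`K = H · (L ∩ K)`: every `k ∈ K` is `h * l` with `h ∈ H`, `l ∈ L`. -/
theorem exists_mul_of_relIndex_eq {G : Type*} [CommGroup G] (H K L : Subgroup G) (hHK : H ≤ K)
    (h0 : L.relIndex K ≠ 0) (h : L.relIndex H = L.relIndex K) (k : G) (hk : k ∈ K) :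
    ∃ h' ∈ H, ∃ l ∈ L, k = h' * l := by
  -- the subgroup `M = H ⊔ (L ⊓ K)` lies between `L ⊓ K` and `K`
  have hMK : H ⊔ (L ⊓ K) ≤ K := sup_le hHK inf_le_right
  have hLM : L ⊓ K ≤ H ⊔ (L ⊓ K) := le_sup_right
  -- the relative index of `L ⊓ K` in `M` is the relative index of `L` in `H`
  have h1 : (L ⊓ K).relIndex (H ⊔ (L ⊓ K)) = L.relIndex H := by
    rw [Subgroup.relIndex_sup_right, ← Subgroup.inf_relIndex_right (L ⊓ K) H, inf_assoc,
      inf_eq_right.mpr hHK, Subgroup.inf_relIndex_right]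
  have h2 : (L ⊓ K).relIndex (H ⊔ (L ⊓ K)) * (H ⊔ (L ⊓ K)).relIndex K = (L ⊓ K).relIndex K :=
    Subgroup.relIndex_mul_relIndex _ _ _ hLM hMK
  rw [h1, Subgroup.inf_relIndex_right, h] at h2
  have h3 : (H ⊔ (L ⊓ K)).relIndex K = 1 := by
    have h4 : L.relIndex K * (H ⊔ (L ⊓ K)).relIndex K = L.relIndex K * 1 := by
      rw [h2, mul_one]
    exact Nat.eq_of_mul_eq_mul_left (Nat.pos_of_ne_zero h0) h4
  have hkM : k ∈ H ⊔ (L ⊓ K) := Subgroup.relIndex_eq_one.mp h3 hk
  obtain ⟨a, ha, b, hb, hab⟩ := Subgroup.mem_sup.mp hkM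
  exact ⟨a, ha, b, hb.1, hab.symm⟩

/-- The relative index of an intersection is at most the product of the relative indices
(in possibly larger ambient subgroups `B i ⊇ H`). -/
theorem relIndex_iInf_le_prod {G : Type*} [CommGroup G] {ι : Type*} (s : Finset ι)
    (L B : ι → Subgroup G) (H : Subgroup G) (hH : ∀ i ∈ s, H ≤ B i)
    (hne : ∀ i ∈ s, (L i).relIndex (B i) ≠ 0) :
    (⨅ i ∈ s, L i).relIndex H ≠ 0 ∧
      (⨅ i ∈ s, L i).relIndex H ≤ ∏ i ∈ s, (L i).relIndex (B i) := by
  classical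
  induction s using Finset.induction_on with
  | empty =>
    simp
  | insert a s ha ih =>
    have hHa : H ≤ B a := hH a (Finset.mem_insert_self a s)
    have hnea : (L a).relIndex (B a) ≠ 0 := hne a (Finset.mem_insert_self a s)
    obtain ⟨ih1, ih2⟩ := ih (fun i hi => hH i (Finset.mem_insert_of_mem hi))
      (fun i hi => hne i (Finset.mem_insert_of_mem hi))
    have ha0 : (L a).relIndex H ≠ 0 := fun h0 =>
      hnea (Subgroup.relIndex_eq_zero_of_le_right hHa h0)
    have hale : (L a).relIndex H ≤ (L a).relIndex (B a) :=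
      Subgroup.relIndex_le_of_le_right hHa hnea
    rw [Finset.iInf_insert, Finset.prod_insert ha]
    refine ⟨Subgroup.relIndex_inf_ne_zero ha0 ih1, ?_⟩
    calc (L a ⊓ ⨅ i ∈ s, L i).relIndex H
        ≤ (L a).relIndex H * (⨅ i ∈ s, L i).relIndex H := Subgroup.relIndex_inf_le
      _ ≤ (L a).relIndex (B a) * ∏ i ∈ s, (L i).relIndex (B i) := Nat.mul_le_mul hale ih2

/-- If `L` has relative index at most `p` (finite) in `B`, `K ≤ B`, and every `p`-th power of an
element of `K` lies in `L`, then the relative index of `L` in `K` is `1` or `p`. -/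
theorem relIndex_eq_one_or_prime {G : Type*} [CommGroup G] (p : ℕ) (hp : p.Prime)
    (L B K : Subgroup G) (hKB : K ≤ B) (h0 : L.relIndex B ≠ 0) (hle : L.relIndex B ≤ p)
    (hpow : ∀ x ∈ K, x ^ p ∈ L) : L.relIndex K = 1 ∨ L.relIndex K = p := by
  have : Fact p.Prime := ⟨hp⟩
  have hK0 : L.relIndex K ≠ 0 := fun h => h0 (Subgroup.relIndex_eq_zero_of_le_right hKB h)
  have hKle : L.relIndex K ≤ p := (Subgroup.relIndex_le_of_le_right hKB h0).trans hle
  -- the quotient `K ⧸ (L ∩ K)` is a `p`-group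
  have hP : IsPGroup p (K ⧸ L.subgroupOf K) := by
    intro g
    refine ⟨1, ?_⟩
    obtain ⟨x, rfl⟩ := QuotientGroup.mk_surjective g
    rw [pow_one, ← QuotientGroup.mk_pow, QuotientGroup.eq_one_iff, Subgroup.mem_subgroupOf]
    exact hpow x x.2
  have hcard : Nat.card (K ⧸ L.subgroupOf K) = L.relIndex K := rfl
  rcases hP.card_eq_or_dvd with h1 | h1
  · left
    rw [← hcard, h1]
  · right
    rw [hcard] at h1
    exact le_antisymm hKle (Nat.le_of_dvd (Nat.pos_of_ne_zero hK0) h1)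

end Fermat.Agent.S14.SecondIneq
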