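import Mathlib

/-!
# S14 / SecondIneq: abstract (commutative) group theory — the rank-one lemma
STATEMENTS FROZEN.  No number theory here.
-/

set_option autoImplicit false

namespace Fermat.Agent.S14.SecondIneq

namespace LinAlgAux

/-- The pairing with the two vectors `e` and `e'`, as a monoid homomorphism
`(ZMod p)^ι → (ZMod p)^2` (written multiplicatively). -/
noncomputable def pairHom (p : ℕ) {ι : Type*} [Fintype ι] (e e' : ι → ZMod p) :
    (ι → Multiplicative (ZMod p)) →* Multiplicative (ZMod p × ZMod p) where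
  toFun w := Multiplicative.ofAdd
    (∑ i, Multiplicative.toAdd (w i) * e i, ∑ i, Multiplicative.toAdd (w i) * e' i)
  map_one' := by simp
  map_mul' w w' := by
    simp [add_mul, Finset.sum_add_distrib, ← ofAdd_add]

theorem pairHom_apply (p : ℕ) {ι : Type*} [Fintype ι] (e e' : ι → ZMod p)
    (w : ι → Multiplicative (ZMod p)) :
    pairHom p e e' w = Multiplicative.ofAdd
      (∑ i, Multiplicative.toAdd (w i) * e i, ∑ i, Multiplicative.toAdd (w i) * e' i) :=
  rfl

/-- If some `2 × 2` minor of `(e, e')` does not vanish, the pairing is surjective. -/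
theorem pairHom_surjective (p : ℕ) [Fact p.Prime] {ι : Type*} [Fintype ι] (e e' : ι → ZMod p)
    (i₀ j₀ : ι) (h : e i₀ * e' j₀ ≠ e j₀ * e' i₀) :
    Function.Surjective (pairHom p e e') := by
  classical
  have hd : e i₀ * e' j₀ - e j₀ * e' i₀ ≠ 0 := sub_ne_zero.mpr h
  intro x
  obtain ⟨⟨a, b⟩, rfl⟩ := Multiplicative.ofAdd.surjective x
  set d : ZMod p := e i₀ * e' j₀ - e j₀ * e' i₀ with hd'
  set s : ZMod p := (a * e' j₀ - b * e j₀) / d with hs
  set t : ZMod p := (b * e i₀ - a * e' i₀) / d with ht
  have h1 : ∀ f : ι → ZMod p,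
      ∑ i, ((if i = i₀ then s else 0) + (if i = j₀ then t else 0)) * f i
        = s * f i₀ + t * f j₀ := by
    intro f
    simp [add_mul, Finset.sum_add_distrib, ite_mul]
  refine ⟨fun i => Multiplicative.ofAdd
    ((if i = i₀ then s else 0) + (if i = j₀ then t else 0)), ?_⟩
  rw [pairHom_apply]
  simp only [toAdd_ofAdd]
  rw [h1 e, h1 e']
  have h2 : s * e i₀ + t * e j₀ = a := by
    rw [hs, ht]
    field_simp
    rw [hd']
    ring
  have h3 : s * e' i₀ + t * e' j₀ = b := by
    rw [hs, ht]
    field_simp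
    rw [hd']
    ring
  rw [h2, h3]

end LinAlgAux

/-- Rank-one lemma: if `W ⊆ (ZMod p)^ι` has at least `p ^ (|ι| - 1)` elements and `e, e'` are both
orthogonal to `W`, then `e` and `e'` are proportional (all `2 × 2` minors vanish). -/
theorem linalg_rank_one (p : ℕ) [Fact p.Prime] {ι : Type*} [Fintype ι]
    (W : Subgroup (ι → Multiplicative (ZMod p)))
    (hW : p ^ Fintype.card ι ≤ p * Nat.card W) (e e' : ι → ZMod p)
    (he : ∀ w ∈ W, ∑ i, Multiplicative.toAdd (w i) * e i = 0)
    (he' : ∀ w ∈ W, ∑ i, Multiplicative.toAdd (w i) * e' i = 0) :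
    ∀ i j, e i * e' j = e j * e' i := by
  classical
  intro i₀ j₀
  by_contra h
  have hp : p.Prime := Fact.out
  have hsurj : Function.Surjective (LinAlgAux.pairHom p e e') :=
    LinAlgAux.pairHom_surjective p e e' i₀ j₀ h
  have hle : W ≤ (LinAlgAux.pairHom p e e').ker := by
    intro w hw
    rw [MonoidHom.mem_ker, LinAlgAux.pairHom_apply, he w hw, he' w hw]
    rfl
  have hcardZ : Nat.card (Multiplicative (ZMod p)) = p :=
    (Nat.card_congr Multiplicative.toAdd).trans (Nat.card_zmod p)
  have hcardG : Nat.card (ι → Multiplicative (ZMod p)) = p ^ Fintype.card ι := by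
    rw [Nat.card_fun, Nat.card_eq_fintype_card (α := ι), hcardZ]
  have hcardT : Nat.card (Multiplicative (ZMod p × ZMod p)) = p * p := by
    rw [Nat.card_congr Multiplicative.toAdd, Nat.card_prod, Nat.card_zmod]
  have hker : Nat.card (LinAlgAux.pairHom p e e').ker * (p * p) = p ^ Fintype.card ι := by
    rw [← hcardG, ← hcardT, ← Subgroup.card_mul_index (LinAlgAux.pairHom p e e').ker,
      Subgroup.index_ker, MonoidHom.range_eq_top.mpr hsurj, Subgroup.card_top]
  have hWle : Nat.card W ≤ Nat.card (LinAlgAux.pairHom p e e').ker :=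
    Subgroup.card_le_of_le hle
  have hpos : 0 < Nat.card (LinAlgAux.pairHom p e e').ker := Nat.card_pos
  have hlt : Nat.card (LinAlgAux.pairHom p e e').ker * (p * p)
      ≤ p * Nat.card (LinAlgAux.pairHom p e e').ker := by
    rw [hker]
    exact hW.trans (Nat.mul_le_mul_left p hWle)
  have hp2 : 2 ≤ p := hp.two_le
  nlinarith

end Fermat.Agent.S14.SecondIneq
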