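import Fermat.Agent.S14.SecondIneq.AbsTChoice
import Fermat.Agent.S14.SecondIneq.AbsIndex
import Fermat.Agent.S14.SecondIneq.AbsCount
import Fermat.Agent.S14.SecondIneq.LinAlg

/-! # S14 / SecondIneq: abstract group theory (umbrella import) -/
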