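import Fermat.Agent.S14.SecondIneq.Defs
import Fermat.Agent.S14.SecondIneq.Local.Group
import Fermat.Agent.S14.SecondIneq.Local.Lift
import Fermat.Agent.S14.SecondIneq.Local.Unif
import Fermat.Agent.S14.SecondIneq.Local.Torsion
import Fermat.Agent.S14.SecondIneq.Local.Count
import Fermat.Agent.S14.SecondIneq.Local.Prod

/-!
# S14 / SecondIneq: finite-level count of local `p`-th powers  (block `Local`, owner helper7)

`B_v / L_v(n) ≅ (𝓞/v^n)ˣ / p-th powers`, which has as many elements as the `p`-torsion of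
`(𝓞/v^n)ˣ`; if `y ^ p ≡ 1 mod v ^ n` and `n > p · v(1 - ζ)` then `y ≡ ζ ^ i mod v ^ (n - v(p))`
for some `i`, whence at most `p · N(v) ^ v(p) = p · |𝓞 / (v ^ n + (p))|` solutions.
STATEMENTS FROZEN (owner of the statements: helper1).  Sub-files go to `SecondIneq/Local/`.
-/

set_option autoImplicit false

namespace Fermat.Agent.S14.SecondIneq

open NumberField IsDedekindDomain

/-- `[B_v : L_v(n)] ≤ p · |𝓞 / (v ^ n + (p))|` (and the index is finite), provided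
`(1 - ζ) ^ p ∉ v ^ n`, i.e. `n > p · v(1 - ζ)`.  For `v ∤ p` (any `n ≥ 1`) the bound is `p`. -/
theorem local_index_bound {p : ℕ} [Fact p.Prime] (F : Type*) [Field F] [NumberField F]
    (ζ : 𝓞 F) (hζ : IsPrimitiveRoot ζ p) (v : HeightOneSpectrum (𝓞 F)) (n : ℕ)
    (hn : (1 - ζ) ^ p ∉ v.asIdeal ^ n) :
    (Lp p F v n).relIndex (Bp p F v) ≠ 0 ∧
      (Lp p F v n).relIndex (Bp p F v) ≤
        p * Nat.card (𝓞 F ⧸ (v.asIdeal ^ n ⊔ Ideal.span {((p : ℕ) : 𝓞 F)})) := by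
  have hn0 : n ≠ 0 := by
    rintro rfl
    exact hn (by rw [pow_zero, Ideal.one_eq_top]; exact Submodule.mem_top)
  have hne : v.asIdeal ^ n ≠ ⊥ := pow_ne_zero n v.ne_bot
  have : Finite (𝓞 F ⧸ v.asIdeal ^ n) := Ideal.finiteQuotientOfFreeOfNeBot _ hne
  obtain ⟨φ, hφ1, hφ2⟩ := Local.exists_lift (p := p) F v n hn0
  have hsurj : ∀ x ∈ Bp p F v, ∃ a, x / φ a ∈ Lp p F v n := by
    intro x hx
    obtain ⟨t, u, hu, h⟩ := Local.exists_mul_pow_eq_int F v x hx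
    exact hφ1 x t u hu h
  have h1 := Local.relIndex_le_card_torsion (Lp p F v n) (Bp p F v) p φ hsurj hφ2
  have h2 := Local.card_pTorsion_units_le (v.asIdeal ^ n) p ζ
    (fun y hy => Local.exists_mul_sub_mem F ζ hζ v n hn y hy)
  exact ⟨h1.1, h1.2.trans h2⟩

/-- `∏_{v ∈ S} |𝓞 / (v ^ n + (p))| ≤ |𝓞 / (p)| = p ^ [F : ℚ] ≤ p ^ (2 r)`. -/
theorem local_prod_bound {p : ℕ} [Fact p.Prime] (F : Type*) [Field F] [NumberField F]
    (S : Finset (HeightOneSpectrum (𝓞 F))) (n : ℕ) :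
    ∏ v ∈ S, Nat.card (𝓞 F ⧸ (v.asIdeal ^ n ⊔ Ideal.span {((p : ℕ) : 𝓞 F)})) ≤
      p ^ (2 * Fintype.card (InfinitePlace F)) :=
  Local.prod_card_le F S n

end Fermat.Agent.S14.SecondIneq
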