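import Fermat.Agent.S14.SecondIneq.BasicLp
import Fermat.Agent.S14.SecondIneq.AbsGroup
import Fermat.Agent.S14.SecondIneq.Units
import Fermat.Agent.S14.SecondIneq.Local

/-!
# S14 / SecondIneq: Chevalley's count.   STATEMENTS FROZEN.
-/

set_option autoImplicit false

namespace Fermat.Agent.S14.SecondIneq

open NumberField IsDedekindDomain

namespace CountMainAux

/-- `S`-units are monotone in `S`. -/
theorem SU_mono {F : Type*} [Field F] [NumberField F]
    {S S' : Finset (HeightOneSpectrum (𝓞 F))} (h : S ⊆ S') : SU F S ≤ SU F S' := by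
  intro x hx
  rw [mem_SU_iff] at hx ⊢
  exact fun v hv => hx v (fun hvS => hv (h hvS))

/-- The final numerical step. -/
theorem arith_step (p s t r u b c : ℕ) (hp : 0 < p) (hu : u + r ≤ t + 1)
    (hb : b = u + 2 * r) (h : p ^ (s + t + r) ≤ p ^ b * c) : p ^ s ≤ p * c := by
  have hpb : 0 < p ^ b := pow_pos hp b
  refine Nat.le_of_mul_le_mul_left ?_ hpb
  have h1 : p ^ b * p ^ s ≤ p ^ (s + t + r + 1) := by
    rw [← pow_add]
    exact Nat.pow_le_pow_right hp (by omega)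
  calc p ^ b * p ^ s ≤ p ^ (s + t + r + 1) := h1
    _ = p * p ^ (s + t + r) := by rw [pow_succ]; ring
    _ ≤ p * (p ^ b * c) := Nat.mul_le_mul_left p h
    _ = p ^ b * (p * c) := by ring

end CountMainAux

/-- The count: the valuation vectors (mod `p`, at `S₁`) of the `(S₁ ∪ T)`-units fill a subgroup of
`(ZMod p)^S₁` of index at most `p`, provided `|T| ≥ |S₁ ∪ R| + r - 1` and Claim 2 holds for
`S = S₁ ∪ R` and `T`. -/
theorem count_main {p : ℕ} [Fact p.Prime] (F : Type*) [Field F] [NumberField F]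
    [DecidableEq (HeightOneSpectrum (𝓞 F))]
    (ζ : 𝓞 F) (hζ : IsPrimitiveRoot ζ p) (S₁ R T : Finset (HeightOneSpectrum (𝓞 F)))
    (hS₁R : Disjoint S₁ R) (hT : Disjoint T (S₁ ∪ R))
    (hcard : (S₁ ∪ R).card + Fintype.card (InfinitePlace F) ≤ T.card + 1)
    (n : ℕ) (hn : ∀ v ∈ S₁ ∪ R, (1 - ζ) ^ p ∉ v.asIdeal ^ n)
    (hclaim : ∀ x : Fˣ, x ∈ SU F ((S₁ ∪ R) ∪ T) → (∀ v ∈ S₁ ∪ R, x ∈ Lp p F v n) →
      x ∈ PthPow p F) :
    p ^ S₁.card ≤ p * Nat.card ((SU F (S₁ ∪ T)).map (valMod p F S₁)) := by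
  have hp : p.Prime := Fact.out
  have hp0 : 0 < p := hp.pos
  have : NeZero p := ⟨hp.ne_zero⟩
  have : Finite (S₁ → Multiplicative (ZMod p)) := inferInstance
  -- the primitive root in `F`
  have hζF : ∃ ζ' : F, IsPrimitiveRoot ζ' p :=
    ⟨algebraMap (𝓞 F) F ζ, hζ.map_of_injective (FaithfulSMul.algebraMap_injective (𝓞 F) F)⟩
  -- disjointness facts
  have hTS₁ : Disjoint S₁ T := (hT.mono_right Finset.subset_union_left).symm
  have hcardST : (S₁ ∪ T).card = S₁.card + T.card := Finset.card_union_of_disjoint hTS₁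
  -- the index bound
  have h3 : ((powMonoidHom p : Fˣ →* Fˣ).range).relIndex (SU F (S₁ ∪ T)) =
      p ^ ((S₁ ∪ T).card + Fintype.card (InfinitePlace F)) :=
    sunit_index F hζF (S₁ ∪ T)
  -- the ambient groups `Bp`
  have hH : ∀ v ∈ S₁ ∪ R, SU F (S₁ ∪ T) ⊓ (valMod p F S₁).ker ≤ Bp p F v := by
    intro v hv x hx
    have hxU : x ∈ SU F (S₁ ∪ T) := (Subgroup.mem_inf.mp hx).1
    have hxker : x ∈ (valMod p F S₁).ker := (Subgroup.mem_inf.mp hx).2
    rcases Finset.mem_union.mp hv with hv1 | hvR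
    · exact (mem_ker_valMod_iff p S₁ x).mp hxker v hv1
    · have hvS₁ : v ∉ S₁ := fun h => Finset.disjoint_left.mp hS₁R h hvR
      have hvT : v ∉ T := fun h => Finset.disjoint_left.mp hT h hv
      have hvST : v ∉ S₁ ∪ T := by
        rw [Finset.mem_union]
        exact fun h => h.elim hvS₁ hvT
      have h0 : ord v x = 0 := (mem_SU_iff (S₁ ∪ T) x).mp hxU v hvST
      rw [mem_Bp_iff, h0]
      exact dvd_zero _
  have hne : ∀ v ∈ S₁ ∪ R, (Lp p F v n).relIndex (Bp p F v) ≠ 0 := fun v hv =>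
    (local_index_bound F ζ hζ v n (hn v hv)).1
  have hidx := relIndex_iInf_le_prod (S₁ ∪ R) (fun v => Lp p F v n) (fun v => Bp p F v)
    (SU F (S₁ ∪ T) ⊓ (valMod p F S₁).ker) hH hne
  have hprod : ∏ v ∈ S₁ ∪ R, (Lp p F v n).relIndex (Bp p F v) ≤
      p ^ ((S₁ ∪ R).card + 2 * Fintype.card (InfinitePlace F)) := by
    calc ∏ v ∈ S₁ ∪ R, (Lp p F v n).relIndex (Bp p F v)
        ≤ ∏ v ∈ S₁ ∪ R,
            p * Nat.card (𝓞 F ⧸ (v.asIdeal ^ n ⊔ Ideal.span {((p : ℕ) : 𝓞 F)})) :=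
          Finset.prod_le_prod' fun v hv => (local_index_bound F ζ hζ v n (hn v hv)).2
      _ = p ^ (S₁ ∪ R).card *
            ∏ v ∈ S₁ ∪ R, Nat.card (𝓞 F ⧸ (v.asIdeal ^ n ⊔ Ideal.span {((p : ℕ) : 𝓞 F)})) := by
          rw [Finset.prod_mul_distrib, Finset.prod_const]
      _ ≤ p ^ (S₁ ∪ R).card * p ^ (2 * Fintype.card (InfinitePlace F)) :=
          Nat.mul_le_mul_left _ (local_prod_bound F (S₁ ∪ R) n)
      _ = p ^ ((S₁ ∪ R).card + 2 * Fintype.card (InfinitePlace F)) := (pow_add _ _ _).symm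
  have key := abs_count p ((S₁ ∪ T).card + Fintype.card (InfinitePlace F))
    ((S₁ ∪ R).card + 2 * Fintype.card (InfinitePlace F)) hp0 (SU F (S₁ ∪ T))
    ((SU F (S₁ ∪ T) ⊓ (valMod p F S₁).ker) ⊓ ⨅ v ∈ S₁ ∪ R, Lp p F v n) (valMod p F S₁)
    inf_le_left
    (by
      intro x hx
      have hxa : x ∈ SU F (S₁ ∪ T) ⊓ (valMod p F S₁).ker := (Subgroup.mem_inf.mp hx).1
      have hxb : x ∈ ⨅ v ∈ S₁ ∪ R, Lp p F v n := (Subgroup.mem_inf.mp hx).2
      have hxU : x ∈ SU F (S₁ ∪ T) := (Subgroup.mem_inf.mp hxa).1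
      have hx1 : x ∈ SU F ((S₁ ∪ R) ∪ T) :=
        CountMainAux.SU_mono (Finset.union_subset_union_left Finset.subset_union_left) hxU
      have hx2 : ∀ v ∈ S₁ ∪ R, x ∈ Lp p F v n := by
        intro v hv
        have h' := Subgroup.mem_iInf.mp hxb v
        exact Subgroup.mem_iInf.mp h' hv
      exact hclaim x hx1 hx2)
    h3
    (by
      rw [Subgroup.inf_relIndex_left]
      exact ⟨hidx.1, hidx.2.trans hprod⟩)
  rw [hcardST] at key
  exact CountMainAux.arith_step p S₁.card T.card (Fintype.card (InfinitePlace F)) (S₁ ∪ R).card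
    ((S₁ ∪ R).card + 2 * Fintype.card (InfinitePlace F)) _ hp0 hcard rfl key

end Fermat.Agent.S14.SecondIneq
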