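import Fermat.Agent.S14.SecondIneq.BasicLp
import Fermat.Agent.S14.SecondIneq.BasicSU
import Fermat.Agent.S14.SecondIneq.AbsGroup
import Fermat.Agent.S14.SecondIneq.Local

/-!
# S14 / SecondIneq: the covering property ("Claim 1") from the index form
STATEMENT FROZEN.
-/

set_option autoImplicit false

namespace Fermat.Agent.S14.SecondIneq.CoverAux

open NumberField IsDedekindDomain

variable {F : Type*} [Field F] [NumberField F]

/-- The subgroup of the elements of `Fˣ` which are units at all primes of `T`. -/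
noncomputable def unitsAt (T : Finset (HeightOneSpectrum (𝓞 F))) : Subgroup Fˣ where
  carrier := {x | ∀ w ∈ T, ord w x = 0}
  one_mem' := fun w _ => ord_one w
  mul_mem' := by
    intro x y hx hy w hw
    rw [ord_mul, hx w hw, hy w hw, add_zero]
  inv_mem' := by
    intro x hx w hw
    rw [ord_inv, hx w hw, neg_zero]

theorem mem_unitsAt (T : Finset (HeightOneSpectrum (𝓞 F))) (x : Fˣ) :
    x ∈ unitsAt T ↔ ∀ w ∈ T, ord w x = 0 := Iff.rfl

theorem SU_le_unitsAt (S T : Finset (HeightOneSpectrum (𝓞 F))) (hdisj : Disjoint T S) :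
    SU F S ≤ unitsAt T := by
  intro x hx w hw
  exact (mem_SU_iff S x).mp hx w (Finset.disjoint_left.mp hdisj hw)

theorem unitsAt_le_Bp (p : ℕ) (T : Finset (HeightOneSpectrum (𝓞 F)))
    (w : HeightOneSpectrum (𝓞 F)) (hw : w ∈ T) : unitsAt T ≤ Bp p F w := by
  intro x hx
  rw [mem_Bp_iff, hx w hw]
  exact dvd_zero _

omit [NumberField F] in
/-- If `(1 - ζ) ^ p ∈ w` then `p ∈ w`. -/
theorem natCast_mem_of_pow_mem {p : ℕ} [Fact p.Prime] (ζ : 𝓞 F) (hζ : IsPrimitiveRoot ζ p)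
    (w : HeightOneSpectrum (𝓞 F)) (h : (1 - ζ) ^ p ∈ w.asIdeal) :
    ((p : ℕ) : 𝓞 F) ∈ w.asIdeal := by
  have h1 : 1 - ζ ∈ w.asIdeal := w.isPrime.mem_of_pow_mem _ h
  have hsum : ((p : ℕ) : 𝓞 F) = ∑ i ∈ Finset.range p, (1 - ζ ^ i) := by
    rw [Finset.sum_sub_distrib, hζ.geom_sum_eq_zero (Fact.out : p.Prime).one_lt, sub_zero]
    simp
  rw [hsum]
  refine Ideal.sum_mem _ fun i _ => ?_
  have hdvd : 1 - ζ ∣ 1 - ζ ^ i := by
    simpa using sub_dvd_pow_sub_pow (1 : 𝓞 F) ζ i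
  exact Ideal.mem_of_dvd _ hdvd h1

/-- The local index at a prime `w` not above `p` is finite and at most `p`. -/
theorem local_le {p : ℕ} [Fact p.Prime] (ζ : 𝓞 F) (hζ : IsPrimitiveRoot ζ p)
    (w : HeightOneSpectrum (𝓞 F)) (hw : ((p : ℕ) : 𝓞 F) ∉ w.asIdeal) :
    (Lp p F w 1).relIndex (Bp p F w) ≠ 0 ∧ (Lp p F w 1).relIndex (Bp p F w) ≤ p := by
  have hn : (1 - ζ) ^ p ∉ w.asIdeal ^ 1 := by
    rw [pow_one]
    exact fun h => hw (natCast_mem_of_pow_mem ζ hζ w h)
  obtain ⟨h1, h2⟩ := local_index_bound F ζ hζ w 1 hn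
  refine ⟨h1, h2.trans ?_⟩
  have htop : w.asIdeal ^ 1 ⊔ Ideal.span {((p : ℕ) : 𝓞 F)} = ⊤ := by
    rw [pow_one]
    apply w.isMaximal.out.2
    refine lt_of_le_of_ne le_sup_left (fun heq => hw ?_)
    rw [heq]
    exact Ideal.mem_sup_right (Ideal.subset_span rfl)
  rw [htop]
  have hsub : Subsingleton (𝓞 F ⧸ (⊤ : Ideal (𝓞 F))) := Ideal.Quotient.subsingleton_iff.mpr rfl
  have hcard : Nat.card (𝓞 F ⧸ (⊤ : Ideal (𝓞 F))) = 1 := Nat.card_unique
  rw [hcard, mul_one]

end Fermat.Agent.S14.SecondIneq.CoverAux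

namespace Fermat.Agent.S14.SecondIneq

open NumberField IsDedekindDomain

/-- If the residue conditions at `T` are independent on `S`-units, then `S`-units realise all
residue classes modulo `p`-th powers at `T` simultaneously: `Cover p F S T`. -/
theorem cover_of_index {p : ℕ} [Fact p.Prime] (F : Type*) [Field F] [NumberField F]
    (ζ : 𝓞 F) (hζ : IsPrimitiveRoot ζ p) (S T : Finset (HeightOneSpectrum (𝓞 F)))
    (hdisj : Disjoint T S) (hTp : ∀ w ∈ T, ((p : ℕ) : 𝓞 F) ∉ w.asIdeal)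
    (hidx : (Res p F T).relIndex (SU F S) = p ^ T.card) : Cover p F S T := by
  classical
  have hp : p.Prime := Fact.out
  -- index computations
  have hSD : SU F S ≤ CoverAux.unitsAt T := CoverAux.SU_le_unitsAt S T hdisj
  have hbound := relIndex_iInf_le_prod T (fun w => Lp p F w 1) (fun w => Bp p F w)
    (CoverAux.unitsAt T) (fun w hw => CoverAux.unitsAt_le_Bp p T w hw)
    (fun w hw => (CoverAux.local_le ζ hζ w (hTp w hw)).1)
  have hRes : (⨅ w ∈ T, Lp p F w 1) = Res p F T := rfl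
  rw [hRes] at hbound
  obtain ⟨hD0, hDle⟩ := hbound
  have hDle' : (Res p F T).relIndex (CoverAux.unitsAt T) ≤ p ^ T.card := by
    refine hDle.trans ?_
    calc ∏ w ∈ T, (Lp p F w 1).relIndex (Bp p F w) ≤ ∏ w ∈ T, p :=
          Finset.prod_le_prod' (fun w hw => (CoverAux.local_le ζ hζ w (hTp w hw)).2)
      _ = p ^ T.card := by rw [Finset.prod_const]
  have hle : (Res p F T).relIndex (SU F S) ≤ (Res p F T).relIndex (CoverAux.unitsAt T) :=
    Subgroup.relIndex_le_of_le_right hSD hD0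
  have heq : (Res p F T).relIndex (SU F S) = (Res p F T).relIndex (CoverAux.unitsAt T) :=
    le_antisymm hle (hidx ▸ hDle')
  -- the covering property
  intro y hy
  by_cases hy0 : y = 0
  · refine ⟨1, one_ne_zero, fun v _ h => v.isPrime.ne_top ((Ideal.eq_top_iff_one _).2 h),
      fun w hw => ?_⟩
    exact absurd (hy0 ▸ w.asIdeal.zero_mem) (hy w hw)
  obtain ⟨xy, hxy⟩ := exists_unit_of_int y hy0
  have hxyD : xy ∈ CoverAux.unitsAt T := fun w hw =>
    (ord_eq_zero_iff_of_int w xy y hxy).mpr (hy w hw)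
  obtain ⟨h, hh, l, hl, hxyhl⟩ := exists_mul_of_relIndex_eq (SU F S) (CoverAux.unitsAt T)
    (Res p F T) hSD hD0 heq xy hxyD
  obtain ⟨a, z, ha0, hz0, haz, haS, hzS⟩ :=
    exists_int_quot_of_mem_SU S h⁻¹ (Subgroup.inv_mem _ hh)
  obtain ⟨xz, hxz⟩ := exists_unit_of_int z hz0
  have hp1 : p - 1 + 1 = p := Nat.sub_add_cancel hp.pos
  refine ⟨a * z ^ (p - 1), mul_ne_zero ha0 (pow_ne_zero _ hz0), fun v hv => ?_, fun w hw => ?_⟩
  · intro hmem
    rcases v.isPrime.mem_or_mem hmem with h1 | h1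
    · exact haS v hv h1
    · exact hzS v hv (v.isPrime.mem_of_pow_mem _ h1)
  · have hwS : w ∉ S := Finset.disjoint_left.mp hdisj hw
    have huw : a * z ^ (p - 1) ∉ w.asIdeal := by
      intro hmem
      rcases w.isPrime.mem_or_mem hmem with h1 | h1
      · exact haS w hwS h1
      · exact hzS w hwS (w.isPrime.mem_of_pow_mem _ h1)
    have huyw : a * z ^ (p - 1) * y ∉ w.asIdeal := by
      intro hmem
      rcases w.isPrime.mem_or_mem hmem with h1 | h1
      · exact huw h1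
      · exact hy w hw h1
    have hX : ((l * xz ^ p : Fˣ) : F) = ((a * z ^ (p - 1) * y : 𝓞 F) : F) := by
      have hl' : l = h⁻¹ * xy := by rw [hxyhl, inv_mul_cancel_left]
      have hzp : (z : F) ^ p = (z : F) ^ (p - 1) * (z : F) := by rw [← pow_succ, hp1]
      have hcast : ((a * z ^ (p - 1) * y : 𝓞 F) : F)
          = (a : F) * (z : F) ^ (p - 1) * (y : F) := by
        simp only [map_mul, map_pow]
      rw [hcast, hl', Units.val_mul, Units.val_mul, Units.val_pow_eq_pow_val, hxy, hxz, ← haz,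
        hzp]
      ring
    have hXmem : l * xz ^ p ∈ Res p F T :=
      Subgroup.mul_mem _ hl (PthPow_le_Res p T ((mem_PthPow_iff p _).mpr ⟨xz, rfl⟩))
    have hXw : l * xz ^ p ∈ Lp p F w 1 := (mem_Res_iff p T _).mp hXmem w hw
    obtain ⟨c, hc⟩ := (mem_Lp_iff_of_int p w 1 _ _ hX huyw).mp hXw
    exact ⟨c, by rwa [pow_one] at hc⟩

end Fermat.Agent.S14.SecondIneq
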