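import Fermat.Agent.S14.SecondIneq.BasicVal

/-!
# S14 / SecondIneq: a finite set of primes, disjoint from `R`, generating the class group
STATEMENTS FROZEN.
-/

set_option autoImplicit false

namespace Fermat.Agent.S14.SecondIneq

open NumberField IsDedekindDomain

namespace GenSetAux

open scoped nonZeroDivisors

/-- Every ideal class of a Dedekind domain contains a nonzero integral ideal coprime to a given
nonzero ideal `N`. -/
theorem exists_coprime_rep {A : Type*} [CommRing A] [IsDedekindDomain A] (N : Ideal A)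
    (hN : N ≠ ⊥) (C : ClassGroup A) :
    ∃ 𝔞 : (Ideal A)⁰, ClassGroup.mk0 𝔞 = C ∧ (𝔞 : Ideal A) ⊔ N = ⊤ := by
  obtain ⟨J, hJ⟩ := ClassGroup.mk0_surjective C⁻¹
  have hJ0 : (J : Ideal A) ≠ ⊥ := nonZeroDivisors.coe_ne_zero J
  have hI : (J : Ideal A) * N ≠ 0 := mul_ne_zero hJ0 hN
  obtain ⟨a, ha⟩ := IsDedekindDomain.exists_sup_span_eq
    (Ideal.mul_le_left : (J : Ideal A) * N ≤ J) hI
  have hle : Ideal.span {a} ≤ (J : Ideal A) := by
    rw [← ha]
    exact le_sup_right
  obtain ⟨𝔞, h𝔞⟩ := Ideal.dvd_iff_le.mpr hle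
  have hcop : 𝔞 ⊔ N = ⊤ := by
    have h1 : (J : Ideal A) * (N ⊔ 𝔞) = J * ⊤ := by
      rw [Ideal.mul_sup, ← h𝔞, ha, Ideal.mul_top]
    have h2 := mul_left_cancel₀ hJ0 h1
    rw [sup_comm]
    exact h2
  by_cases ha0 : a = 0
  · obtain ⟨𝔟, h𝔟⟩ := ClassGroup.mk0_surjective C
    refine ⟨𝔟, h𝔟, ?_⟩
    have h𝔞0 : 𝔞 = ⊥ := by
      have h3 : (J : Ideal A) * 𝔞 = 0 := by
        rw [← h𝔞, ha0]
        simp
      rcases mul_eq_zero.mp h3 with h | h
      · exact absurd h hJ0
      · exact h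
    rw [h𝔞0, bot_sup_eq] at hcop
    rw [hcop, sup_top_eq]
  · have h𝔞0 : 𝔞 ≠ ⊥ := by
      rintro rfl
      apply ha0
      rw [Ideal.mul_bot] at h𝔞
      exact Ideal.span_singleton_eq_bot.mp h𝔞
    have h𝔞mem : 𝔞 ∈ (Ideal A)⁰ := mem_nonZeroDivisors_of_ne_zero h𝔞0
    refine ⟨⟨𝔞, h𝔞mem⟩, ?_, hcop⟩
    have hprin : ClassGroup.mk0 (J * ⟨𝔞, h𝔞mem⟩) = 1 := by
      have h4 : J * ⟨𝔞, h𝔞mem⟩ = ⟨(J : Ideal A) * 𝔞, mul_mem J.2 h𝔞mem⟩ := rfl
      rw [h4, ClassGroup.mk0_eq_one_iff, ← h𝔞]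
      exact ⟨⟨a, rfl⟩⟩
    rw [map_mul, hJ] at hprin
    exact (inv_mul_eq_one.mp hprin).symm

/-- Abstract form of the statement: in a Dedekind domain with finite class group, given a finite
set `R` of primes and a nonzero element `x`, there is a finite set `S₁` of primes, disjoint from
`R`, containing the primes dividing `x` outside `R`, such that every prime `q ∉ S₁` contains an
element `y` of exact order one at `q` which is a unit at all other primes outside `S₁`. -/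
theorem exists_gen_finset {A : Type*} [CommRing A] [IsDedekindDomain A] [Finite (ClassGroup A)]
    (R : Finset (HeightOneSpectrum A)) (x : A) (hx : x ≠ 0) :
    ∃ S₁ : Finset (HeightOneSpectrum A), Disjoint S₁ R ∧
      (∀ v : HeightOneSpectrum A, x ∈ v.asIdeal → v ∉ R → v ∈ S₁) ∧
      ∀ q : HeightOneSpectrum A, q ∉ S₁ →
        ∃ y : A, y ∈ q.asIdeal ∧ y ∉ q.asIdeal ^ 2 ∧
          ∀ v : HeightOneSpectrum A, v ∉ S₁ → v ≠ q → y ∉ v.asIdeal := by
  classical
  have := Fintype.ofFinite (ClassGroup A)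
  set N : Ideal A := ∏ w ∈ R, w.asIdeal with hNdef
  have hN : N ≠ ⊥ := by
    rw [hNdef, ← Ideal.zero_eq_bot]
    exact Finset.prod_ne_zero_iff.mpr (fun w _ => w.ne_bot)
  choose 𝔞 h𝔞C h𝔞N using exists_coprime_rep N hN
  set Big : Ideal A := (∏ C : ClassGroup A, (𝔞 C : Ideal A)) * Ideal.span {x} with hBigdef
  have hBig : Big ≠ 0 :=
    mul_ne_zero (Finset.prod_ne_zero_iff.mpr fun C _ => nonZeroDivisors.coe_ne_zero (𝔞 C))
      (by simpa using hx)
  refine ⟨(Ideal.finite_factors hBig).toFinset \ R, Finset.sdiff_disjoint, ?_, ?_⟩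
  · intro v hxv hvR
    rw [Finset.mem_sdiff, Set.Finite.mem_toFinset]
    refine ⟨?_, hvR⟩
    show v.asIdeal ∣ Big
    rw [Ideal.dvd_iff_le]
    exact Ideal.mul_le_right.trans ((Ideal.span_singleton_le_iff_mem _).mpr hxv)
  · have key : ∀ v : HeightOneSpectrum A, v ∉ (Ideal.finite_factors hBig).toFinset \ R →
        ∀ C, ¬ (𝔞 C : Ideal A) ≤ v.asIdeal := by
      intro v hv C hle
      by_cases hvR : v ∈ R
      · have hNv : N ≤ v.asIdeal := Ideal.prod_le_inf.trans (Finset.inf_le hvR)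
        have htop : (⊤ : Ideal A) ≤ v.asIdeal := by
          rw [← h𝔞N C]
          exact sup_le hle hNv
        exact v.isPrime.ne_top (top_le_iff.mp htop)
      · apply hv
        rw [Finset.mem_sdiff, Set.Finite.mem_toFinset]
        refine ⟨?_, hvR⟩
        show v.asIdeal ∣ Big
        rw [Ideal.dvd_iff_le]
        refine Ideal.mul_le_left.trans ?_
        exact (Ideal.prod_le_inf.trans
          (Finset.inf_le (f := fun C => (𝔞 C : Ideal A)) (Finset.mem_univ C))).trans hle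
    intro q hq
    have hqmem : q.asIdeal ∈ (Ideal A)⁰ := mem_nonZeroDivisors_of_ne_zero q.ne_bot
    set C := (ClassGroup.mk0 ⟨q.asIdeal, hqmem⟩)⁻¹ with hC
    have hprin : (q.asIdeal * (𝔞 C : Ideal A)).IsPrincipal := by
      have h1 : ClassGroup.mk0 (⟨q.asIdeal, hqmem⟩ * 𝔞 C) = 1 := by
        rw [map_mul, h𝔞C C, hC, mul_inv_cancel]
      have h4 : (⟨q.asIdeal, hqmem⟩ * 𝔞 C : (Ideal A)⁰) =
          ⟨q.asIdeal * (𝔞 C : Ideal A), mul_mem hqmem (𝔞 C).2⟩ := rfl
      rw [h4, ClassGroup.mk0_eq_one_iff] at h1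
      exact h1
    obtain ⟨⟨y, hy⟩⟩ := hprin
    have hy' : q.asIdeal * (𝔞 C : Ideal A) = Ideal.span {y} := hy
    refine ⟨y, ?_, ?_, ?_⟩
    · have hle : Ideal.span {y} ≤ q.asIdeal := hy' ▸ Ideal.mul_le_left
      exact (Ideal.span_singleton_le_iff_mem _).mp hle
    · intro hyq2
      have h1 : q.asIdeal * (𝔞 C : Ideal A) ≤ q.asIdeal ^ 2 := by
        rw [hy']
        exact (Ideal.span_singleton_le_iff_mem _).mpr hyq2
      rw [← Ideal.dvd_iff_le, pow_two] at h1
      have h2 : q.asIdeal ∣ (𝔞 C : Ideal A) := (mul_dvd_mul_iff_left q.ne_bot).mp h1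
      exact key q hq C (Ideal.dvd_iff_le.mp h2)
    · intro v hv hvq hyv
      have h1 : q.asIdeal * (𝔞 C : Ideal A) ≤ v.asIdeal := by
        rw [hy']
        exact (Ideal.span_singleton_le_iff_mem _).mpr hyv
      rcases v.isPrime.mul_le.mp h1 with h | h
      · apply hvq
        have heq := q.isMaximal.eq_of_le v.isPrime.ne_top h
        exact HeightOneSpectrum.ext heq.symm
      · exact key v hv C h

end GenSetAux

/-- There is a finite set `S₁` of primes, disjoint from `R`, containing all primes above `p`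
outside `R`, such that every prime `q ∉ S₁` times an `S₁`-supported ideal is principal.
(Each ideal class contains an integral ideal prime to `∏ R`; take all their prime factors.) -/
theorem exists_gen_set (p : ℕ) [Fact p.Prime] (F : Type*) [Field F] [NumberField F]
    (R : Finset (HeightOneSpectrum (𝓞 F))) :
    ∃ S₁ : Finset (HeightOneSpectrum (𝓞 F)), Disjoint S₁ R ∧
      (∀ v : HeightOneSpectrum (𝓞 F), ((p : ℕ) : 𝓞 F) ∈ v.asIdeal → v ∉ R → v ∈ S₁) ∧
      GenSet F S₁ := by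
  have hp : ((p : ℕ) : 𝓞 F) ≠ 0 := Nat.cast_ne_zero.mpr (Fact.out : p.Prime).ne_zero
  exact GenSetAux.exists_gen_finset R ((p : ℕ) : 𝓞 F) hp

end Fermat.Agent.S14.SecondIneq
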