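import Fermat.Agent.S14.SecondIneq.BasicLp
import Fermat.Agent.S14.SecondIneq.BasicSU

/-!
# S14 / SecondIneq: orthogonality of admissible functions to valuation vectors of units
STATEMENT FROZEN.
-/

set_option autoImplicit false

namespace Fermat.Agent.S14.SecondIneq

open NumberField IsDedekindDomain

/-- Orthogonality: a function `e` on primes killing the principal ideals prime to `R` and the
primes of `T` is orthogonal to the valuation vectors of the `(S₁ ∪ T)`-units. -/
theorem orth {p : ℕ} [Fact p.Prime] (F : Type*) [Field F] [NumberField F]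
    [DecidableEq (HeightOneSpectrum (𝓞 F))]
    (S₁ R T : Finset (HeightOneSpectrum (𝓞 F))) (hS₁R : Disjoint S₁ R) (hTR : Disjoint T R)
    (e : Ideal (𝓞 F) → ZMod p)
    (he : ∀ y : 𝓞 F, y ≠ 0 → (∀ w ∈ R, y ∉ w.asIdeal) → principalSum F e y = 0)
    (heT : ∀ w ∈ T, e w.asIdeal = 0) (x : Fˣ) (hx : x ∈ SU F (S₁ ∪ T)) :
    ∑ v : S₁, Multiplicative.toAdd (valMod p F S₁ x v) * e v.1.asIdeal = 0 := by
  -- write `x = y / z` with `y`, `z` integers supported in `S₁ ∪ T`
  obtain ⟨y, z, hy0, hz0, hxz, hy, hz⟩ := exists_int_quot_of_mem_SU (S₁ ∪ T) x hx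
  have hR : ∀ w ∈ R, w ∉ S₁ ∪ T := by
    intro w hw hmem
    rcases Finset.mem_union.1 hmem with h | h
    · exact Finset.disjoint_left.1 hS₁R h hw
    · exact Finset.disjoint_left.1 hTR h hw
  have hey : principalSum F e y = 0 := he y hy0 fun w hw => hy w (hR w hw)
  have hez : principalSum F e z = 0 := he z hz0 fun w hw => hz w (hR w hw)
  obtain ⟨xy, hxy⟩ := exists_unit_of_int y hy0
  obtain ⟨xz, hxz'⟩ := exists_unit_of_int z hz0
  have hmul : x * xz = xy := by
    apply Units.ext
    rw [Units.val_mul, hxz', hxy, hxz]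
  have hord : ∀ v : HeightOneSpectrum (𝓞 F), ord v x = ord v xy - ord v xz := by
    intro v
    rw [← hmul, ord_mul]
    ring
  -- the sum over `S₁` vanishes for integers supported in `S₁ ∪ T` that are killed by `e`
  have key : ∀ (u : Fˣ) (w : 𝓞 F), (u : F) = (w : F) →
      (∀ v : HeightOneSpectrum (𝓞 F), v ∉ S₁ ∪ T → w ∉ v.asIdeal) → principalSum F e w = 0 →
      ∑ v ∈ S₁, ((ord v u : ℤ) : ZMod p) * e v.asIdeal = 0 := by
    intro u w huw hw hew
    rw [principalSum_eq_sum_ord e u w huw (S₁ ∪ T) hw] at hew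
    rw [← hew]
    apply Finset.sum_subset Finset.subset_union_left
    intro v hv hv1
    have hvT : v ∈ T := (Finset.mem_union.1 hv).resolve_left hv1
    rw [heT v hvT, mul_zero]
  have h1 := key xy y hxy hy hey
  have h2 := key xz z hxz' hz hez
  have h3 : ∑ v ∈ S₁, ((ord v x : ℤ) : ZMod p) * e v.asIdeal = 0 := by
    have hterm : ∀ v ∈ S₁, ((ord v x : ℤ) : ZMod p) * e v.asIdeal =
        ((ord v xy : ℤ) : ZMod p) * e v.asIdeal - ((ord v xz : ℤ) : ZMod p) * e v.asIdeal := by
      intro v _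
      rw [hord v]
      push_cast
      ring
    rw [Finset.sum_congr rfl hterm, Finset.sum_sub_distrib, h1, h2, sub_zero]
  have h4 : ∑ v : S₁, Multiplicative.toAdd (valMod p F S₁ x v) * e v.1.asIdeal =
      - ∑ v ∈ S₁, ((ord v x : ℤ) : ZMod p) * e v.asIdeal := by
    rw [← Finset.sum_coe_sort S₁ (fun v => ((ord v x : ℤ) : ZMod p) * e v.asIdeal),
      ← Finset.sum_neg_distrib]
    apply Finset.sum_congr rfl
    intro v _
    rw [valMod_apply]
    push_cast
    ring
  rw [h4, h3, neg_zero]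

end Fermat.Agent.S14.SecondIneq
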