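import Fermat.Agent.S14.SecondIneq.BasicVal

/-!
# S14 / SecondIneq: a uniform bound on the exponents `n` with `x ∈ v ^ n`
STATEMENT FROZEN.
-/

set_option autoImplicit false

namespace Fermat.Agent.S14.SecondIneq

open NumberField IsDedekindDomain

variable {F : Type*} [Field F] [NumberField F]

/-- A nonzero integer lies in `v ^ n` for no prime `v` once `n` is large (uniformly in `v`). -/
theorem exists_precision (x : 𝓞 F) (hx : x ≠ 0) :
    ∃ n : ℕ, ∀ v : HeightOneSpectrum (𝓞 F), x ∉ v.asIdeal ^ n := by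
  refine ⟨Ideal.absNorm (Ideal.span ({x} : Set (𝓞 F))), fun v hmem => ?_⟩
  -- the norm `N` of the principal ideal `(x)` is positive
  have hN0 : Ideal.absNorm (Ideal.span ({x} : Set (𝓞 F))) ≠ 0 := by
    rw [Ne, Ideal.absNorm_eq_zero_iff, Ideal.span_singleton_eq_bot]
    exact hx
  -- the norm of `v` is at least `2`
  have hv0 : Ideal.absNorm v.asIdeal ≠ 0 := by
    rw [Ne, Ideal.absNorm_eq_zero_iff]
    exact v.ne_bot
  have hv1 : Ideal.absNorm v.asIdeal ≠ 1 := by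
    rw [Ne, Ideal.absNorm_eq_one_iff]
    exact v.isPrime.ne_top
  have hv2 : 2 ≤ Ideal.absNorm v.asIdeal := by omega
  -- `N(v) ^ N` divides `N`
  have hle : Ideal.span ({x} : Set (𝓞 F)) ≤
      v.asIdeal ^ Ideal.absNorm (Ideal.span ({x} : Set (𝓞 F))) :=
    (Ideal.span_singleton_le_iff_mem _).2 hmem
  have hdvd := Ideal.absNorm_dvd_absNorm_of_le hle
  rw [map_pow] at hdvd
  have h1 : Ideal.absNorm v.asIdeal ^ Ideal.absNorm (Ideal.span ({x} : Set (𝓞 F))) ≤
      Ideal.absNorm (Ideal.span ({x} : Set (𝓞 F))) :=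
    Nat.le_of_dvd (Nat.pos_of_ne_zero hN0) hdvd
  have h2 : 2 ^ Ideal.absNorm (Ideal.span ({x} : Set (𝓞 F))) ≤
      Ideal.absNorm v.asIdeal ^ Ideal.absNorm (Ideal.span ({x} : Set (𝓞 F))) :=
    Nat.pow_le_pow_left hv2 _
  have h3 : Ideal.absNorm (Ideal.span ({x} : Set (𝓞 F))) <
      2 ^ Ideal.absNorm (Ideal.span ({x} : Set (𝓞 F))) := Nat.lt_two_pow_self
  omega

end Fermat.Agent.S14.SecondIneq
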