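import Fermat.Agent.S14.SecondIneq.BasicVal

/-!
# S14 / SecondIneq: values at arbitrary primes from values on a generating set
STATEMENT FROZEN.
-/

set_option autoImplicit false

namespace Fermat.Agent.S14.SecondIneq

open NumberField IsDedekindDomain

/-- Consequence of `GenSet`: the value at a prime `q ∉ R` of any function killing the principal
ideals prime to `R` is a fixed linear combination of its values on `S₁`. -/
theorem exists_rep {p : ℕ} [Fact p.Prime] (F : Type*) [Field F] [NumberField F]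
    (S₁ R : Finset (HeightOneSpectrum (𝓞 F))) (hS₁R : Disjoint S₁ R) (hgen : GenSet F S₁)
    (q : HeightOneSpectrum (𝓞 F)) (hq : q ∉ R) :
    ∃ c : S₁ → ZMod p, ∀ e : Ideal (𝓞 F) → ZMod p,
      (∀ y : 𝓞 F, y ≠ 0 → (∀ w ∈ R, y ∉ w.asIdeal) → principalSum F e y = 0) →
      e q.asIdeal = ∑ v : S₁, c v * e v.1.asIdeal := by
  classical
  by_cases hqS : q ∈ S₁
  · -- `q ∈ S₁`: take the indicator function of `q`
    refine ⟨fun v => if v = ⟨q, hqS⟩ then 1 else 0, fun e _ => ?_⟩
    rw [Finset.sum_eq_single (⟨q, hqS⟩ : S₁)]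
    · change e q.asIdeal = (if (⟨q, hqS⟩ : S₁) = ⟨q, hqS⟩ then 1 else 0) * e q.asIdeal
      rw [if_pos rfl, one_mul]
    · intro b _ hb
      change (if b = ⟨q, hqS⟩ then 1 else 0) * e b.1.asIdeal = 0
      rw [if_neg hb, zero_mul]
    · intro h
      exact absurd (Finset.mem_univ _) h
  · -- `q ∉ S₁`: use a generator `y` of `q` times an `S₁`-supported ideal
    obtain ⟨y, hyq, hyq2, hyv⟩ := hgen q hqS
    have hy0 : y ≠ 0 := by
      rintro rfl
      exact hyq2 (Ideal.zero_mem _)
    obtain ⟨x, hx⟩ := exists_unit_of_int y hy0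
    have hord : ord q x = 1 := by
      have h1 : ((1 : ℕ) : ℤ) ≤ ord q x :=
        (le_ord_iff_of_int q x y hx 1).mpr (by rw [pow_one]; exact hyq)
      have h2 : ¬ ((2 : ℕ) : ℤ) ≤ ord q x := fun h =>
        hyq2 ((le_ord_iff_of_int q x y hx 2).mp h)
      push_cast at h1 h2
      omega
    refine ⟨fun v => -((ord v.1 x : ℤ) : ZMod p), fun e he => ?_⟩
    have hyR : ∀ w ∈ R, y ∉ w.asIdeal := by
      intro w hw
      refine hyv w (fun hwS => ?_) (fun hwq => ?_)
      · exact Finset.disjoint_left.mp hS₁R hwS hw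
      · exact hq (hwq ▸ hw)
    have h0 := he y hy0 hyR
    have hU : ∀ v : HeightOneSpectrum (𝓞 F), v ∉ insert q S₁ → y ∉ v.asIdeal := by
      intro v hv
      rw [Finset.mem_insert, not_or] at hv
      exact hyv v hv.2 hv.1
    rw [principalSum_eq_sum_ord e x y hx (insert q S₁) hU, Finset.sum_insert hqS, hord,
      Int.cast_one, one_mul] at h0
    rw [Finset.sum_coe_sort S₁ (fun v => -((ord v x : ℤ) : ZMod p) * e v.asIdeal)]
    simp only [neg_mul, Finset.sum_neg_distrib]
    exact eq_neg_of_add_eq_zero_left h0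

end Fermat.Agent.S14.SecondIneq
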