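import Fermat.Agent.S14.SecondIneq.TChoice
import Fermat.Agent.S14.SecondIneq.Cover
import Fermat.Agent.S14.SecondIneq.Claim2
import Fermat.Agent.S14.SecondIneq.CountMain
import Fermat.Agent.S14.SecondIneq.Orth
import Fermat.Agent.S14.SecondIneq.GenSet
import Fermat.Agent.S14.SecondIneq.Rep
import Fermat.Agent.S14.SecondIneq.Precision

/-!
# S14 / SecondIneq: the second inequality in functional form (assembly)

`main'` is the statement with primes as `HeightOneSpectrum`; `main` is the frozen interface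
statement `Fermat.Agent.S14.secondInequality`.
-/

set_option autoImplicit false

namespace Fermat.Agent.S14.SecondIneq

open NumberField IsDedekindDomain

universe u v

theorem main' {p : ℕ} [Fact p.Prime] (hp : p ≠ 2)
    (F : Type u) (M : Type v) [Field F] [NumberField F] [Field M] [NumberField M] [Algebra F M]
    [IsGalois F M]
    (hζ : ∃ ζ : F, IsPrimitiveRoot ζ p) (hdeg : Module.finrank F M = p)
    (hunr : UnramifiedEverywhere F M)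
    (R : Finset (HeightOneSpectrum (𝓞 F)))
    (e e' : Ideal (𝓞 F) → ZMod p)
    (he : ∀ y : 𝓞 F, y ≠ 0 → (∀ w ∈ R, y ∉ w.asIdeal) → principalSum F e y = 0)
    (he' : ∀ y : 𝓞 F, y ≠ 0 → (∀ w ∈ R, y ∉ w.asIdeal) → principalSum F e' y = 0)
    (hs : ∀ q : HeightOneSpectrum (𝓞 F), q ∉ R → SplitsCompletely F M q.asIdeal →
      e q.asIdeal = 0)
    (hs' : ∀ q : HeightOneSpectrum (𝓞 F), q ∉ R → SplitsCompletely F M q.asIdeal →
      e' q.asIdeal = 0)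
    (q₁ q₂ : HeightOneSpectrum (𝓞 F)) (h₁ : q₁ ∉ R) (h₂ : q₂ ∉ R) :
    e q₁.asIdeal * e' q₂.asIdeal = e q₂.asIdeal * e' q₁.asIdeal := by
  classical
  have hpp : p.Prime := Fact.out
  obtain ⟨ζ, hζ⟩ := Kummer.exists_integer_root hζ
  obtain ⟨S₁, hS₁R, hS₁p, hgen⟩ := exists_gen_set p F R
  obtain ⟨T, hTS, hTgood, hTidx, hTcard⟩ := exists_T_index hp F M ζ hζ hdeg hunr (S₁ ∪ R)
  have hcov : Cover p F (S₁ ∪ R) T :=
    cover_of_index F ζ hζ (S₁ ∪ R) T hTS (fun w hw => (hTgood w hw).1) hTidx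
  -- precision
  have hζ1 : ζ ≠ 1 := hζ.ne_one hpp.one_lt
  have hlam : (1 - ζ) ^ p ≠ 0 := pow_ne_zero _ (sub_ne_zero.2 (Ne.symm hζ1))
  obtain ⟨n, hn⟩ := exists_precision ((1 - ζ) ^ p) hlam
  have hSp : ∀ v : HeightOneSpectrum (𝓞 F), ((p : ℕ) : 𝓞 F) ∈ v.asIdeal → v ∈ S₁ ∪ R := by
    intro v hv
    by_cases hvR : v ∈ R
    · exact Finset.mem_union_right _ hvR
    · exact Finset.mem_union_left _ (hS₁p v hv hvR)
  have hgenS : ∀ q : HeightOneSpectrum (𝓞 F), q ∉ S₁ ∪ R →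
      ∃ y : 𝓞 F, y ∈ q.asIdeal ∧ y ∉ q.asIdeal ^ 2 ∧
        ∀ v : HeightOneSpectrum (𝓞 F), v ∉ S₁ ∪ R → v ≠ q → y ∉ v.asIdeal := by
    intro q hq
    obtain ⟨y, h1, h2, h3⟩ := hgen q (fun h => hq (Finset.mem_union_left _ h))
    exact ⟨y, h1, h2, fun v hv hvq => h3 v (fun h => hv (Finset.mem_union_left _ h)) hvq⟩
  have hclaim : ∀ x : Fˣ, x ∈ SU F ((S₁ ∪ R) ∪ T) → (∀ v ∈ S₁ ∪ R, x ∈ Lp p F v n) →
      x ∈ PthPow p F :=
    fun x hx hloc =>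
      claim2 hp F ζ hζ (S₁ ∪ R) T hTS hSp hgenS hcov n (fun v _ => hn v) x hx hloc
  have hcount := count_main F ζ hζ S₁ R T hS₁R hTS hTcard n (fun v _ => hn v) hclaim
  -- orthogonality
  have hTR : Disjoint T R := hTS.mono_right Finset.subset_union_right
  have heT : ∀ w ∈ T, e w.asIdeal = 0 :=
    fun w hw => hs w (Finset.disjoint_left.1 hTR hw) (hTgood w hw).2
  have heT' : ∀ w ∈ T, e' w.asIdeal = 0 :=
    fun w hw => hs' w (Finset.disjoint_left.1 hTR hw) (hTgood w hw).2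
  have hW : p ^ Fintype.card S₁ ≤ p * Nat.card ((SU F (S₁ ∪ T)).map (valMod p F S₁)) := by
    simpa using hcount
  have hmin := linalg_rank_one p ((SU F (S₁ ∪ T)).map (valMod p F S₁)) hW
    (fun v => e v.1.asIdeal) (fun v => e' v.1.asIdeal)
    (by
      rintro w ⟨x, hx, rfl⟩
      exact orth F S₁ R T hS₁R hTR e he heT x hx)
    (by
      rintro w ⟨x, hx, rfl⟩
      exact orth F S₁ R T hS₁R hTR e' he' heT' x hx)
  -- values at `q₁`, `q₂`
  obtain ⟨c₁, hc₁⟩ := exists_rep (p := p) F S₁ R hS₁R hgen q₁ h₁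
  obtain ⟨c₂, hc₂⟩ := exists_rep (p := p) F S₁ R hS₁R hgen q₂ h₂
  rw [hc₁ e he, hc₂ e' he', hc₂ e he, hc₁ e' he']
  rw [Finset.sum_mul_sum, Finset.sum_mul_sum]
  rw [Finset.sum_comm]
  refine Finset.sum_congr rfl fun v' _ => Finset.sum_congr rfl fun v _ => ?_
  have := hmin v v'
  linear_combination (c₁ v * c₂ v') * this

/-- The frozen interface statement `Fermat.Agent.S14.secondInequality`. -/
theorem main {p : ℕ} [Fact p.Prime] (hp : p ≠ 2)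
    (F M : Type*) [Field F] [NumberField F] [Field M] [NumberField M] [Algebra F M] [IsGalois F M]
    (hζ : ∃ ζ : F, IsPrimitiveRoot ζ p) (hdeg : Module.finrank F M = p)
    (hunr : UnramifiedEverywhere F M)
    (R : Finset (Ideal (𝓞 F))) (hR : ∀ w ∈ R, w.IsPrime ∧ w ≠ ⊥)
    (e e' : Ideal (𝓞 F) → ZMod p)
    (he : ∀ y : 𝓞 F, y ≠ 0 → (∀ w ∈ R, y ∉ w) → principalSum F e y = 0)
    (he' : ∀ y : 𝓞 F, y ≠ 0 → (∀ w ∈ R, y ∉ w) → principalSum F e' y = 0)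
    (hs : ∀ q : Ideal (𝓞 F), q.IsPrime → q ≠ ⊥ → q ∉ R → SplitsCompletely F M q → e q = 0)
    (hs' : ∀ q : Ideal (𝓞 F), q.IsPrime → q ≠ ⊥ → q ∉ R → SplitsCompletely F M q → e' q = 0)
    (q₁ q₂ : Ideal (𝓞 F)) (h₁ : q₁.IsPrime ∧ q₁ ≠ ⊥ ∧ q₁ ∉ R) (h₂ : q₂.IsPrime ∧ q₂ ≠ ⊥ ∧ q₂ ∉ R) :
    e q₁ * e' q₂ = e q₂ * e' q₁ := by
  classical
  let R' : Finset (HeightOneSpectrum (𝓞 F)) :=
    R.attach.image (fun w => ⟨w.1, (hR w.1 w.2).1, (hR w.1 w.2).2⟩)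
  have hmem : ∀ v : HeightOneSpectrum (𝓞 F), v ∈ R' ↔ v.asIdeal ∈ R := by
    intro v
    constructor
    · intro hv
      obtain ⟨w, -, rfl⟩ := Finset.mem_image.1 hv
      exact w.2
    · intro hv
      exact Finset.mem_image.2 ⟨⟨v.asIdeal, hv⟩, Finset.mem_attach _ _, HeightOneSpectrum.ext rfl⟩
  exact main' hp F M hζ hdeg hunr R' e e'
    (fun y hy h => he y hy (fun w hw =>
      h ⟨w, (hR w hw).1, (hR w hw).2⟩ ((hmem _).2 hw)))
    (fun y hy h => he' y hy (fun w hw =>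
      h ⟨w, (hR w hw).1, (hR w hw).2⟩ ((hmem _).2 hw)))
    (fun q hq hsp => hs q.asIdeal q.isPrime q.ne_bot (fun h => hq ((hmem q).2 h)) hsp)
    (fun q hq hsp => hs' q.asIdeal q.isPrime q.ne_bot (fun h => hq ((hmem q).2 h)) hsp)
    ⟨q₁, h₁.1, h₁.2.1⟩ ⟨q₂, h₂.1, h₂.2.1⟩
    (fun h => h₁.2.2 ((hmem _).1 h)) (fun h => h₂.2.2 ((hmem _).1 h))

end Fermat.Agent.S14.SecondIneq
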