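import Mathlib

/-!
# S14 / SecondIneq: abstract (commutative) group theory — inductive choice of independent conditions
STATEMENTS FROZEN.  No number theory here.
-/

set_option autoImplicit false

namespace Fermat.Agent.S14.SecondIneq

namespace AbsTChoiceAux

/-- One step of the inductive choice: an admissible finite set `T` either already satisfies the
final count `N ≤ |T| + 1`, or it can be enlarged by one good index keeping admissibility. -/
theorem step {G : Type*} [CommGroup G] {ι : Type*} [DecidableEq ι] (p N : ℕ)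
    (hp : p.Prime) (U P A : Subgroup G) (L : ι → Subgroup G) (Good : ι → Prop)
    (hPU : P.relIndex U = p ^ N)
    (hPL : ∀ w, P ≤ L w)
    (hLU : ∀ w, Good w → ∀ K : Subgroup G, K ≤ U → (L w).relIndex K = 1 ∨ (L w).relIndex K = p)
    (hA : P.relIndex A ≠ 0 ∧ P.relIndex A ≤ p)
    (hext : ∀ (T : Finset ι) (x : G), x ∈ U → x ∉ A → ∃ w, w ∉ T ∧ Good w ∧ x ∉ L w)
    (T : Finset ι) (hT : (⨅ w ∈ T, L w).relIndex U = p ^ T.card) :
    N ≤ T.card + 1 ∨
      ∃ w, w ∉ T ∧ Good w ∧ (⨅ w' ∈ insert w T, L w').relIndex U = p ^ (T.card + 1) := by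
  by_cases hle : (⨅ w ∈ T, L w) ⊓ U ≤ A
  · left
    have hPR : P ≤ ⨅ w ∈ T, L w := le_iInf₂ fun w _ => hPL w
    have h1 : P.relIndex ((⨅ w ∈ T, L w) ⊓ U) * (⨅ w ∈ T, L w).relIndex U =
        (P ⊓ ⨅ w ∈ T, L w).relIndex U := Subgroup.relIndex_inf_mul_relIndex P _ U
    rw [inf_of_le_left hPR, hPU, hT] at h1
    have h3 : P.relIndex ((⨅ w ∈ T, L w) ⊓ U) ≤ p :=
      (Subgroup.relIndex_le_of_le_right hle hA.1).trans hA.2
    have h4 : p ^ N ≤ p ^ (T.card + 1) := by
      rw [← h1, pow_succ, mul_comm (p ^ T.card) p]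
      exact Nat.mul_le_mul_right _ h3
    exact (Nat.pow_le_pow_iff_right hp.one_lt).mp h4
  · right
    obtain ⟨x, hx, hxA⟩ := SetLike.not_le_iff_exists.mp hle
    obtain ⟨w, hwT, hwG, hxw⟩ := hext T x hx.2 hxA
    refine ⟨w, hwT, hwG, ?_⟩
    rw [Finset.iInf_insert]
    have h1 : (L w).relIndex ((⨅ w ∈ T, L w) ⊓ U) * (⨅ w ∈ T, L w).relIndex U =
        (L w ⊓ ⨅ w ∈ T, L w).relIndex U := Subgroup.relIndex_inf_mul_relIndex (L w) _ U
    have h2 : (L w).relIndex ((⨅ w ∈ T, L w) ⊓ U) = p := by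
      rcases hLU w hwG ((⨅ w ∈ T, L w) ⊓ U) inf_le_right with h | h
      · exact absurd (Subgroup.relIndex_eq_one.mp h hx) hxw
      · exact h
    rw [← h1, h2, hT, pow_succ, mul_comm]

end AbsTChoiceAux

/-- Inductive choice of independent "residue conditions".  `U` a subgroup with `[U : U ∩ P] = p^N`,
subgroups `L w ⊇ P` such that each `L w` (for good `w`) has relative index `1` or `p` in every
subgroup of `U`, `A ⊇ P` with `[A : P] ≤ p`, and every `x ∈ U` outside `A` is excluded by some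
good `L w` with `w` outside any given finite set.  Then there is a finite set `T` of good indices
with `[U : U ∩ ⨅_{w ∈ T} L w] = p ^ |T|` and `N ≤ |T| + 1`. -/
theorem abs_T_choice {G : Type*} [CommGroup G] {ι : Type*} [DecidableEq ι] (p N : ℕ)
    (hp : p.Prime) (U P A : Subgroup G) (L : ι → Subgroup G) (Good : ι → Prop)
    (hPU : P.relIndex U = p ^ N)
    (hPL : ∀ w, P ≤ L w)
    (hLU : ∀ w, Good w → ∀ K : Subgroup G, K ≤ U → (L w).relIndex K = 1 ∨ (L w).relIndex K = p)
    (hPA : P ≤ A) (hA : P.relIndex A ≠ 0 ∧ P.relIndex A ≤ p)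
    (hext : ∀ (T : Finset ι) (x : G), x ∈ U → x ∉ A → ∃ w, w ∉ T ∧ Good w ∧ x ∉ L w) :
    ∃ T : Finset ι, (∀ w ∈ T, Good w) ∧ (⨅ w ∈ T, L w).relIndex U = p ^ T.card ∧
      N ≤ T.card + 1 := by
  have _hPA := hPA
  -- induction on the "distance" `d` with `N ≤ |T| + d`
  have key : ∀ d : ℕ, ∀ T : Finset ι, (∀ w ∈ T, Good w) →
      (⨅ w ∈ T, L w).relIndex U = p ^ T.card → N ≤ T.card + d →
      ∃ T : Finset ι, (∀ w ∈ T, Good w) ∧ (⨅ w ∈ T, L w).relIndex U = p ^ T.card ∧
        N ≤ T.card + 1 := by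
    intro d
    induction d with
    | zero =>
      intro T hG hT hN
      exact ⟨T, hG, hT, hN.trans (Nat.le_succ _)⟩
    | succ d ih =>
      intro T hG hT hN
      rcases AbsTChoiceAux.step p N hp U P A L Good hPU hPL hLU hA hext T hT with h | h
      · exact ⟨T, hG, hT, h⟩
      · obtain ⟨w, hwT, hwG, hw⟩ := h
        have hcard : (insert w T).card = T.card + 1 := Finset.card_insert_of_notMem hwT
        refine ih (insert w T) ?_ ?_ ?_
        · intro w' hw'
          rcases Finset.mem_insert.mp hw' with rfl | h'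
          · exact hwG
          · exact hG w' h'
        · rw [hcard]
          exact hw
        · rw [hcard]
          omega
  refine key N ∅ ?_ ?_ ?_
  · intro w hw
    exact absurd hw (Finset.notMem_empty w)
  · simp
  · simp

end Fermat.Agent.S14.SecondIneq
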