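import Fermat.Agent.S14.SecondIneq.BasicVal

/-!
# S14 / SecondIneq: integral representatives of elements of `Fˣ`
STATEMENTS FROZEN.  One worker proves this file; everybody may use it.
-/

set_option autoImplicit false

namespace Fermat.Agent.S14.SecondIneq

open NumberField IsDedekindDomain

variable (p : ℕ) [Fact p.Prime] {F : Type*} [Field F] [NumberField F]

/-- If `t ^ p` is an `S`-unit then so is `t`. -/
theorem mem_SU_of_pow_mem (S : Finset (HeightOneSpectrum (𝓞 F))) (t : Fˣ)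
    (h : t ^ p ∈ SU F S) : t ∈ SU F S := by
  have hp0 : p ≠ 0 := (Fact.out : p.Prime).ne_zero
  intro v hv
  have h1 : v.valuation F ((t ^ p : Fˣ) : F) = 1 := h v hv
  rw [Units.val_pow_eq_pow_val, map_pow] at h1
  exact (pow_eq_one_iff_of_nonneg zero_le hp0).mp h1

/-- A `v`-unit of `F` is a quotient of two integers prime to `v`. -/
theorem exists_int_quot_of_ord_eq_zero (v : HeightOneSpectrum (𝓞 F)) (x : Fˣ)
    (h : ord v x = 0) :
    ∃ y z : 𝓞 F, y ∉ v.asIdeal ∧ z ∉ v.asIdeal ∧ (x : F) * (z : F) = (y : F) := by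
  have hval : v.valuation F (x : F) = 1 := by
    rw [← HeightOneSpectrum.valuationOfNeZero_eq]
    have h1 : v.valuationOfNeZero x = 1 := by
      unfold ord at h
      have h2 : Multiplicative.toAdd (v.valuationOfNeZero x) = 0 := neg_eq_zero.mp h
      exact h2
    rw [h1]
    rfl
  obtain ⟨n, d, hnd⟩ := v.exists_primeCompl_mul_eq_of_integer (x : F) hval.le
  have hd : v.valuation F (algebraMap (𝓞 F) F d) = 1 :=
    v.valuation_eq_one_iff_notMem.mpr d.2
  have hn : v.valuation F (algebraMap (𝓞 F) F n) = 1 := by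
    rw [← hnd, map_mul, hval, hd, mul_one]
  exact ⟨n, d, v.valuation_eq_one_iff_notMem.mp hn, d.2, hnd⟩

/-- Every element of `Fˣ` becomes integral after multiplication by the `p`-th power of a nonzero
integer. -/
theorem exists_int_mul_pow (x : Fˣ) :
    ∃ y b : 𝓞 F, b ≠ 0 ∧ y ≠ 0 ∧ (x : F) * (b : F) ^ p = (y : F) := by
  obtain ⟨a, b, hb, hab⟩ := IsFractionRing.div_surjective (A := 𝓞 F) (x : F)
  have hb0 : b ≠ 0 := nonZeroDivisors.ne_zero hb
  have hbF : algebraMap (𝓞 F) F b ≠ 0 :=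
    (map_ne_zero_iff _ (IsFractionRing.injective (𝓞 F) F)).mpr hb0
  have ha0 : a ≠ 0 := by
    rintro rfl
    rw [map_zero, zero_div] at hab
    exact x.ne_zero hab.symm
  have hp0 : p ≠ 0 := (Fact.out : p.Prime).ne_zero
  refine ⟨a * b ^ (p - 1), b, hb0, mul_ne_zero ha0 (pow_ne_zero _ hb0), ?_⟩
  show (x : F) * (algebraMap (𝓞 F) F b) ^ p = algebraMap (𝓞 F) F (a * b ^ (p - 1))
  rw [map_mul, map_pow, ← hab, ← pow_sub_one_mul hp0 (algebraMap (𝓞 F) F b), ← mul_assoc,
    mul_comm (algebraMap (𝓞 F) F a / algebraMap (𝓞 F) F b), mul_assoc,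
    div_mul_cancel₀ _ hbF, mul_comm]

end Fermat.Agent.S14.SecondIneq
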