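import Fermat.Agent.S14.SecondIneq.BasicInt

/-!
# S14 / SecondIneq: basic API for `Lp`, `PthPow`, integral representatives
STATEMENTS FROZEN.  One worker proves this file; everybody may use it.
-/

set_option autoImplicit false

namespace Fermat.Agent.S14.SecondIneq.BasicLpAux

open NumberField IsDedekindDomain

variable {F : Type*} [Field F] [NumberField F]

/-- An integer prime to `v` is invertible modulo every power of `v`. -/
theorem exists_mul_sub_one_mem (v : HeightOneSpectrum (𝓞 F)) (n : ℕ) {z : 𝓞 F}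
    (hz : z ∉ v.asIdeal) : ∃ s : 𝓞 F, z * s - 1 ∈ v.asIdeal ^ n := by
  obtain ⟨s₀, i, hi, hsi⟩ := v.isMaximal.exists_inv hz
  have hcop : IsCoprime (Ideal.span {z}) v.asIdeal :=
    Ideal.isCoprime_iff_exists.mpr
      ⟨s₀ * z, Ideal.mem_span_singleton'.mpr ⟨s₀, rfl⟩, i, hi, hsi⟩
  obtain ⟨i', hi', j', hj', hij⟩ := Ideal.isCoprime_iff_exists.mp (hcop.pow_right (n := n))
  obtain ⟨a, rfl⟩ := Ideal.mem_span_singleton'.mp hi'
  refine ⟨a, ?_⟩
  have h1 : z * a - 1 = -j' := by linear_combination hij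
  rw [h1]
  exact neg_mem hj'

/-- If `w ≡ 1` modulo an ideal then `w ^ k ≡ 1` modulo that ideal. -/
theorem one_sub_pow_mem {A : Type*} [CommRing A] (I : Ideal A) {w : A} (hw : w - 1 ∈ I)
    (k : ℕ) : 1 - w ^ k ∈ I := by
  obtain ⟨d, hd⟩ := sub_dvd_pow_sub_pow w 1 k
  rw [one_pow] at hd
  have h1 : 1 - w ^ k = -((w - 1) * d) := by rw [← hd]; ring
  rw [h1]
  exact neg_mem (Ideal.mul_mem_right _ _ hw)

end Fermat.Agent.S14.SecondIneq.BasicLpAux

namespace Fermat.Agent.S14.SecondIneq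

open NumberField IsDedekindDomain

variable (p : ℕ) [Fact p.Prime] {F : Type*} [Field F] [NumberField F]

theorem mem_PthPow_iff (x : Fˣ) : x ∈ PthPow p F ↔ ∃ t : Fˣ, t ^ p = x := by
  unfold PthPow
  rw [MonoidHom.mem_range]
  simp only [powMonoidHom_apply]

theorem PthPow_le_Lp (v : HeightOneSpectrum (𝓞 F)) (n : ℕ) : PthPow p F ≤ Lp p F v n := by
  intro x hx
  obtain ⟨t, rfl⟩ := (mem_PthPow_iff p x).mp hx
  change ∃ (s : Fˣ) (u : 𝓞 F), u ∈ GoodInt p F v n ∧ ((t ^ p * s ^ p : Fˣ) : F) = (u : F)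
  refine ⟨t⁻¹, 1, one_mem_GoodInt p F v n, ?_⟩
  rw [inv_pow, mul_inv_cancel]
  simp

theorem Lp_le_Bp (v : HeightOneSpectrum (𝓞 F)) (n : ℕ) : Lp p F v n ≤ Bp p F v := by
  rintro x ⟨t, u, hu, h⟩
  rw [mem_Bp_iff]
  have h0 : ord v (x * t ^ p) = 0 := (ord_eq_zero_iff_of_int v (x * t ^ p) u h).mpr hu.1
  rw [ord_mul, ord_pow] at h0
  exact ⟨- ord v t, by linarith⟩

theorem PthPow_le_Res (T : Finset (HeightOneSpectrum (𝓞 F))) : PthPow p F ≤ Res p F T := by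
  intro x hx
  unfold Res
  simp only [Subgroup.mem_iInf]
  exact fun w _ => PthPow_le_Lp p w 1 hx

theorem mem_Res_iff (T : Finset (HeightOneSpectrum (𝓞 F))) (x : Fˣ) :
    x ∈ Res p F T ↔ ∀ w ∈ T, x ∈ Lp p F w 1 := by
  unfold Res
  simp only [Subgroup.mem_iInf]

/-- On `v`-units given by an integer `y ∉ v`: membership in `Lp` is "`y` is a `p`-th power
modulo `v ^ n`". -/
theorem mem_Lp_iff_of_int (v : HeightOneSpectrum (𝓞 F)) (n : ℕ) (x : Fˣ) (y : 𝓞 F)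
    (h : (x : F) = (y : F)) (hy : y ∉ v.asIdeal) :
    x ∈ Lp p F v n ↔ ∃ c : 𝓞 F, y - c ^ p ∈ v.asIdeal ^ n := by
  constructor
  · rintro ⟨t, u, ⟨hu1, c, hc⟩, hxt⟩
    have hp0 : (p : ℤ) ≠ 0 := by
      exact_mod_cast (Fact.out : p.Prime).ne_zero
    -- `ord v t = 0`
    have hx0 : ord v x = 0 := (ord_eq_zero_iff_of_int v x y h).mpr hy
    have hxt0 : ord v (x * t ^ p) = 0 := (ord_eq_zero_iff_of_int v (x * t ^ p) u hxt).mpr hu1
    rw [ord_mul, ord_pow, hx0, zero_add] at hxt0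
    have ht0 : ord v t = 0 := (mul_eq_zero.mp hxt0).resolve_left hp0
    -- write `t = z₁ / z₂`
    obtain ⟨z₁, z₂, hz₁, hz₂, hz⟩ := exists_int_quot_of_ord_eq_zero v t ht0
    -- `y * z₁ ^ p = u * z₂ ^ p`
    have heq : y * z₁ ^ p = u * z₂ ^ p := by
      apply RingOfIntegers.coe_injective
      rw [map_mul, map_mul, map_pow, map_pow]
      change (y : F) * (z₁ : F) ^ p = (u : F) * (z₂ : F) ^ p
      rw [← hz, ← h, ← hxt, Units.val_mul, Units.val_pow_eq_pow_val]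
      ring
    -- invert `z₁` modulo `v ^ n`
    obtain ⟨s, hs⟩ := BasicLpAux.exists_mul_sub_one_mem v n hz₁
    refine ⟨c * z₂ * s, ?_⟩
    have h1 : y - (c * z₂ * s) ^ p = y * (1 - (z₁ * s) ^ p) + (u - c ^ p) * (z₂ * s) ^ p := by
      linear_combination (s ^ p) * heq
    rw [h1]
    exact Ideal.add_mem _ (Ideal.mul_mem_left _ _ (BasicLpAux.one_sub_pow_mem _ hs p))
      (Ideal.mul_mem_right _ _ hc)
  · rintro ⟨c, hc⟩
    exact ⟨1, y, ⟨hy, c, hc⟩, by simp [h]⟩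

end Fermat.Agent.S14.SecondIneq
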