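import Fermat.Agent.S14.SecondIneq.Defs

/-!
# S14 / SecondIneq: basic API for `ord`, `SU`, `Bp`, `valMod`, `principalSum`
STATEMENTS FROZEN.  One worker proves this file; everybody may use it.
Integral elements are handled through hypotheses `(x : Fˣ) (y : 𝓞 F) (h : (x : F) = (y : F))`.
-/

set_option autoImplicit false

namespace Fermat.Agent.S14.SecondIneq

open NumberField IsDedekindDomain

variable {F : Type*} [Field F] [NumberField F]

namespace BasicOrdAux

/-- The multiplicative valuation of a unit of `F` in terms of `ord`. -/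
theorem exp_neg_ord (v : HeightOneSpectrum (𝓞 F)) (x : Fˣ) :
    WithZero.exp (-(ord v x)) = v.valuation F (x : F) := by
  rw [← HeightOneSpectrum.valuationOfNeZero_eq]
  unfold ord
  rw [neg_neg]
  rfl

/-- The multiplicative valuation of an integral unit of `F` in terms of `ord`. -/
theorem exp_neg_ord_of_int (v : HeightOneSpectrum (𝓞 F)) (x : Fˣ) (y : 𝓞 F)
    (h : (x : F) = (y : F)) : WithZero.exp (-(ord v x)) = v.intValuation y := by
  rw [exp_neg_ord, h]
  exact v.valuation_of_algebraMap y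

omit [NumberField F] in
theorem ne_zero_of_int (x : Fˣ) (y : 𝓞 F) (h : (x : F) = (y : F)) : y ≠ 0 := by
  rintro rfl
  exact x.ne_zero (by rw [h]; rfl)

end BasicOrdAux

open BasicOrdAux

theorem ord_one (v : HeightOneSpectrum (𝓞 F)) : ord v (1 : Fˣ) = 0 := by
  unfold ord
  rw [map_one]
  rfl

theorem ord_mul (v : HeightOneSpectrum (𝓞 F)) (x y : Fˣ) : ord v (x * y) = ord v x + ord v y := by
  unfold ord
  rw [map_mul, toAdd_mul]
  ring

theorem ord_inv (v : HeightOneSpectrum (𝓞 F)) (x : Fˣ) : ord v x⁻¹ = - ord v x := by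
  unfold ord
  rw [map_inv, toAdd_inv]

theorem ord_pow (v : HeightOneSpectrum (𝓞 F)) (x : Fˣ) (n : ℕ) : ord v (x ^ n) = n * ord v x := by
  unfold ord
  rw [map_pow, toAdd_pow, nsmul_eq_mul]
  ring

set_option linter.unusedSectionVars false in
/-- every nonzero integer is (the value of) a unit of `F`. -/
theorem exists_unit_of_int (y : 𝓞 F) (hy : y ≠ 0) : ∃ x : Fˣ, (x : F) = (y : F) :=
  ⟨Units.mk0 (y : F) (RingOfIntegers.coe_ne_zero_iff.mpr hy), rfl⟩

theorem ord_nonneg_of_int (v : HeightOneSpectrum (𝓞 F)) (x : Fˣ) (y : 𝓞 F)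
    (h : (x : F) = (y : F)) : 0 ≤ ord v x := by
  have h1 := v.intValuation_le_one y
  rw [← exp_neg_ord_of_int v x y h, ← WithZero.exp_zero, WithZero.exp_le_exp] at h1
  linarith

theorem ord_eq_zero_iff_of_int (v : HeightOneSpectrum (𝓞 F)) (x : Fˣ) (y : 𝓞 F)
    (h : (x : F) = (y : F)) : ord v x = 0 ↔ y ∉ v.asIdeal := by
  rw [← HeightOneSpectrum.intValuation_eq_one_iff, ← exp_neg_ord_of_int v x y h,
    ← WithZero.exp_zero, WithZero.exp_inj, neg_eq_zero]

theorem le_ord_iff_of_int (v : HeightOneSpectrum (𝓞 F)) (x : Fˣ) (y : 𝓞 F)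
    (h : (x : F) = (y : F)) (n : ℕ) : (n : ℤ) ≤ ord v x ↔ y ∈ v.asIdeal ^ n := by
  rw [← HeightOneSpectrum.intValuation_le_pow_iff_mem, ← exp_neg_ord_of_int v x y h,
    WithZero.exp_le_exp, neg_le_neg_iff]

theorem ord_eq_count_of_int (v : HeightOneSpectrum (𝓞 F)) (x : Fˣ) (y : 𝓞 F)
    (h : (x : F) = (y : F)) :
    ord v x = ((UniqueFactorizationMonoid.normalizedFactors (Ideal.span {y})).count v.asIdeal : ℤ) := by
  have hy : y ≠ 0 := ne_zero_of_int x y h
  have hsr : (Ideal.span {y} : Ideal (𝓞 F)) ≠ 0 := by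
    rw [Ne, Ideal.zero_eq_bot, Ideal.span_singleton_eq_bot]
    exact hy
  have h1 := exp_neg_ord_of_int v x y h
  rw [v.intValuation_if_neg hy, WithZero.exp_inj, neg_inj] at h1
  rw [h1, Ideal.count_associates_factors_eq hsr v.isPrime v.ne_bot]

end Fermat.Agent.S14.SecondIneq
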