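import Fermat.Agent.S14.SecondIneq.BasicOrd

/-!
# S14 / SecondIneq: basic API for `SU`, `Bp`, `valMod`, `principalSum` in terms of `ord`
STATEMENTS FROZEN.  One worker proves this file; everybody may use it.
-/

set_option autoImplicit false

namespace Fermat.Agent.S14.SecondIneq.BasicValAux

open NumberField IsDedekindDomain

variable {F : Type*} [Field F] [NumberField F]

/-- `ord v x = 0` exactly when the multiplicative valuation of `x` at `v` is `1`. -/
theorem ord_eq_zero_iff_valuation_eq_one (v : HeightOneSpectrum (𝓞 F)) (x : Fˣ) :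
    ord v x = 0 ↔ v.valuation F (x : F) = 1 := by
  rw [← HeightOneSpectrum.valuationOfNeZero_eq, ← WithZero.coe_one, WithZero.coe_inj]
  unfold ord
  rw [neg_eq_zero]
  exact toAdd_eq_zero

/-- Membership in the range of the `p`-th power map on `Multiplicative ℤ`. -/
theorem mem_range_powMonoidHom_iff (p : ℕ) (m : Multiplicative ℤ) :
    m ∈ (powMonoidHom p : Multiplicative ℤ →* Multiplicative ℤ).range ↔
      (p : ℤ) ∣ Multiplicative.toAdd m := by
  rw [MonoidHom.mem_range]
  constructor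
  · rintro ⟨k, hk⟩
    refine ⟨Multiplicative.toAdd k, ?_⟩
    rw [← hk, powMonoidHom_apply, toAdd_pow, nsmul_eq_mul]
  · rintro ⟨k, hk⟩
    refine ⟨Multiplicative.ofAdd k, ?_⟩
    apply Multiplicative.toAdd.injective
    rw [hk, powMonoidHom_apply, toAdd_pow, nsmul_eq_mul, toAdd_ofAdd]

end Fermat.Agent.S14.SecondIneq.BasicValAux

namespace Fermat.Agent.S14.SecondIneq

open NumberField IsDedekindDomain

variable {F : Type*} [Field F] [NumberField F]

theorem mem_SU_iff (S : Finset (HeightOneSpectrum (𝓞 F))) (x : Fˣ) :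
    x ∈ SU F S ↔ ∀ v : HeightOneSpectrum (𝓞 F), v ∉ S → ord v x = 0 := by
  have h : x ∈ SU F S ↔
      ∀ v : HeightOneSpectrum (𝓞 F), v ∉ S → v.valuation F (x : F) = 1 := Iff.rfl
  rw [h]
  exact forall₂_congr fun v _ => (BasicValAux.ord_eq_zero_iff_valuation_eq_one v x).symm

theorem mem_Bp_iff (p : ℕ) (v : HeightOneSpectrum (𝓞 F)) (x : Fˣ) :
    x ∈ Bp p F v ↔ (p : ℤ) ∣ ord v x := by
  unfold Bp ord
  rw [Subgroup.mem_comap, BasicValAux.mem_range_powMonoidHom_iff, dvd_neg]

theorem valMod_apply (p : ℕ) (S : Finset (HeightOneSpectrum (𝓞 F))) (x : Fˣ) (v : S) :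
    Multiplicative.toAdd (valMod p F S x v) = ((- ord v.1 x : ℤ) : ZMod p) := by
  simp [valMod, ord]

theorem mem_ker_valMod_iff (p : ℕ) (S : Finset (HeightOneSpectrum (𝓞 F))) (x : Fˣ) :
    x ∈ (valMod p F S).ker ↔ ∀ v ∈ S, x ∈ Bp p F v := by
  rw [MonoidHom.mem_ker, funext_iff]
  constructor
  · intro hx v hv
    rw [mem_Bp_iff]
    have h1 := hx ⟨v, hv⟩
    have h2 := valMod_apply p S x ⟨v, hv⟩
    rw [h1] at h2
    have h3 : ((- ord v x : ℤ) : ZMod p) = 0 := by
      rw [← h2]
      rfl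
    exact dvd_neg.mp ((CharP.intCast_eq_zero_iff (ZMod p) p _).mp h3)
  · intro hx v
    have h1 := (mem_Bp_iff p v.1 x).mp (hx v.1 v.2)
    have h3 : ((- ord v.1 x : ℤ) : ZMod p) = 0 :=
      (CharP.intCast_eq_zero_iff (ZMod p) p _).mpr (dvd_neg.mpr h1)
    have h2 := valMod_apply p S x v
    rw [h3] at h2
    exact toAdd_eq_zero.mp h2

/-- `principalSum` in terms of `ord`, over any finite set of primes containing the support. -/
theorem principalSum_eq_sum_ord {p : ℕ} (e : Ideal (𝓞 F) → ZMod p) (x : Fˣ) (y : 𝓞 F)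
    (h : (x : F) = (y : F)) (U : Finset (HeightOneSpectrum (𝓞 F)))
    (hU : ∀ v : HeightOneSpectrum (𝓞 F), v ∉ U → y ∉ v.asIdeal) :
    principalSum F e y = ∑ v ∈ U, ((ord v x : ℤ) : ZMod p) * e v.asIdeal := by
  unfold principalSum
  rw [Finset.sum_multiset_map_count]
  have hinj : Set.InjOn (fun v : HeightOneSpectrum (𝓞 F) => v.asIdeal) U :=
    fun a _ b _ hab => HeightOneSpectrum.ext hab
  have hsum : ∑ v ∈ U, ((ord v x : ℤ) : ZMod p) * e v.asIdeal =
      ∑ q ∈ U.image (fun v : HeightOneSpectrum (𝓞 F) => v.asIdeal),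
        (UniqueFactorizationMonoid.normalizedFactors (Ideal.span {y})).count q • e q := by
    rw [Finset.sum_image hinj]
    refine Finset.sum_congr rfl fun v _ => ?_
    rw [ord_eq_count_of_int v x y h, nsmul_eq_mul, Int.cast_natCast]
  rw [hsum]
  refine Finset.sum_subset ?_ ?_
  · intro q hq
    rw [Multiset.mem_toFinset] at hq
    have hprime := UniqueFactorizationMonoid.prime_of_normalized_factor q hq
    have hdvd := UniqueFactorizationMonoid.dvd_of_mem_normalizedFactors hq
    have hyq : y ∈ q := Ideal.le_of_dvd hdvd (Ideal.mem_span_singleton_self y)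
    have hvU : (⟨q, Ideal.isPrime_of_prime hprime, hprime.ne_zero⟩ :
        HeightOneSpectrum (𝓞 F)) ∈ U := by
      by_contra hv
      exact hU _ hv hyq
    exact Finset.mem_image.mpr ⟨_, hvU, rfl⟩
  · intro q _ hq
    rw [Multiset.mem_toFinset] at hq
    rw [Multiset.count_eq_zero.mpr hq, zero_nsmul]

end Fermat.Agent.S14.SecondIneq
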