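import Fermat.Agent.S14.Defs

/-!
# S14 / theory `SecondIneq` (T6, owner helper1): shared definitions (FROZEN)

Inside the theory, primes of `F` are `v : HeightOneSpectrum (𝓞 F)` (ideal `v.asIdeal`).
* `ord v x : ℤ`      additive valuation of `x : Fˣ` (via Mathlib's `valuationOfNeZero`);
* `SU F S`           the group of `S`-units (Mathlib's `Set.unit`), `S` a finset of primes;
* `PthPow p F`       the subgroup of `p`-th powers of `Fˣ`;
* `Lp p F v n`       "local `p`-th powers to precision `n`":  `x = u / t ^ p` with `u : 𝓞 F`,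
                     `u ∉ v`, `u ≡ c ^ p mod v ^ n`;
* `Bp p F v`         elements whose valuation at `v` is divisible by `p`;
* `valMod p F S`     the vector of valuations at `S`, modulo `p`.
-/

set_option autoImplicit false

namespace Fermat.Agent.S14.SecondIneq

open NumberField IsDedekindDomain

variable (p : ℕ) (F : Type*) [Field F] [NumberField F]

/-- The additive `v`-adic valuation `ord_v(x) ∈ ℤ` of `x : Fˣ`
(`ord_v(y) ≥ 0` for `y ∈ 𝓞 F`, `ord_v(y) ≥ n ↔ y ∈ v ^ n`). -/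
noncomputable def ord {F : Type*} [Field F] [NumberField F] (v : HeightOneSpectrum (𝓞 F))
    (x : Fˣ) : ℤ :=
  - Multiplicative.toAdd (v.valuationOfNeZero x)

/-- The group of `S`-units of `F` (elements of `Fˣ` with `ord_v = 0` for all `v ∉ S`). -/
noncomputable abbrev SU (S : Finset (HeightOneSpectrum (𝓞 F))) : Subgroup Fˣ :=
  (S : Set (HeightOneSpectrum (𝓞 F))).unit F

/-- The subgroup of `p`-th powers of `Fˣ`. -/
def PthPow : Subgroup Fˣ := (powMonoidHom p : Fˣ →* Fˣ).range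

/-- Integers prime to `v` which are `p`-th powers modulo `v ^ n`. -/
def GoodInt (v : HeightOneSpectrum (𝓞 F)) (n : ℕ) : Set (𝓞 F) :=
  {u | u ∉ v.asIdeal ∧ ∃ c : 𝓞 F, u - c ^ p ∈ v.asIdeal ^ n}

omit [NumberField F] in
theorem one_mem_GoodInt (v : HeightOneSpectrum (𝓞 F)) (n : ℕ) : (1 : 𝓞 F) ∈ GoodInt p F v n :=
  ⟨fun h => v.isPrime.ne_top ((Ideal.eq_top_iff_one _).2 h), 1, by simp⟩

omit [NumberField F] in
theorem mul_mem_GoodInt (v : HeightOneSpectrum (𝓞 F)) (n : ℕ) {u u' : 𝓞 F}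
    (hu : u ∈ GoodInt p F v n) (hu' : u' ∈ GoodInt p F v n) : u * u' ∈ GoodInt p F v n := by
  obtain ⟨h1, c, hc⟩ := hu
  obtain ⟨h1', c', hc'⟩ := hu'
  refine ⟨fun h => (v.isPrime.mem_or_mem h).elim h1 h1', c * c', ?_⟩
  have : u * u' - (c * c') ^ p = u * (u' - c' ^ p) + c' ^ p * (u - c ^ p) := by ring
  rw [this]
  exact Ideal.add_mem _ (Ideal.mul_mem_left _ _ hc') (Ideal.mul_mem_left _ _ hc)

omit [NumberField F] in
theorem pow_mem_GoodInt (v : HeightOneSpectrum (𝓞 F)) (n : ℕ) {u : 𝓞 F}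
    (hu : u ∈ GoodInt p F v n) (k : ℕ) : u ^ k ∈ GoodInt p F v n := by
  induction k with
  | zero => simpa using one_mem_GoodInt p F v n
  | succ k ih => rw [pow_succ]; exact mul_mem_GoodInt p F v n ih hu

/-- "Local `p`-th powers at `v` to precision `n`": the subgroup of all `x : Fˣ` such that
`x * t ^ p = u` for some `t : Fˣ` and some integer `u ∉ v` which is a `p`-th power modulo
`v ^ n`.  (It contains all `p`-th powers; for `x` a `v`-unit, `x ∈ Lp p F v n` says that `x` is a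
`p`-th power in `(𝓞 F / v ^ n)ˣ`.) -/
def Lp [hp : Fact p.Prime] (v : HeightOneSpectrum (𝓞 F)) (n : ℕ) : Subgroup Fˣ where
  carrier := {x | ∃ (t : Fˣ) (u : 𝓞 F), u ∈ GoodInt p F v n ∧ ((x * t ^ p : Fˣ) : F) = (u : F)}
  one_mem' := ⟨1, 1, one_mem_GoodInt p F v n, by simp⟩
  mul_mem' := by
    rintro x x' ⟨t, u, hu, h⟩ ⟨t', u', hu', h'⟩
    refine ⟨t * t', u * u', mul_mem_GoodInt p F v n hu hu', ?_⟩
    have : x * x' * (t * t') ^ p = (x * t ^ p) * (x' * t' ^ p) := by
      rw [mul_pow]; exact mul_mul_mul_comm x x' (t ^ p) (t' ^ p)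
    rw [this, Units.val_mul, h, h']
    push_cast
    rfl
  inv_mem' := by
    rintro x ⟨t, u, hu, h⟩
    have hp0 : 0 < p := hp.out.pos
    -- `x⁻¹ * (x * t ^ (p - 1)) ^ p = (x * t ^ p) ^ (p - 1)`
    refine ⟨x * t ^ (p - 1) , u ^ (p - 1), pow_mem_GoodInt p F v n hu (p - 1), ?_⟩
    have e1 : x⁻¹ * (x * t ^ (p - 1)) ^ p = (x * t ^ p) ^ (p - 1) := by
      rw [mul_pow, mul_pow, ← pow_mul, ← pow_mul, Nat.mul_comm (p - 1) p]
      obtain ⟨k, rfl⟩ : ∃ k, p = k + 1 := ⟨p - 1, (Nat.sub_add_cancel hp0).symm⟩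
      simp only [Nat.add_sub_cancel]
      rw [pow_succ x k]
      group
    rw [e1, Units.val_pow_eq_pow_val, h]
    push_cast
    rfl

/-- Elements of `Fˣ` whose valuation at `v` is divisible by `p`. -/
noncomputable def Bp (v : HeightOneSpectrum (𝓞 F)) : Subgroup Fˣ :=
  Subgroup.comap v.valuationOfNeZero (powMonoidHom p : Multiplicative ℤ →* Multiplicative ℤ).range

/-- The vector of valuations at the primes of `S`, modulo `p`
(component at `v`: the class of `- ord v x` in `ZMod p`). -/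
noncomputable def valMod (S : Finset (HeightOneSpectrum (𝓞 F))) :
    Fˣ →* (S → Multiplicative (ZMod p)) :=
  MonoidHom.pi fun v : S =>
    (AddMonoidHom.toMultiplicative (Int.castAddHom (ZMod p))).comp v.1.valuationOfNeZero

/-- `p`-th power residues at all `w ∈ T` (up to `p`-th powers): `⨅ w ∈ T, Lp p F w 1`. -/
def Res [Fact p.Prime] (T : Finset (HeightOneSpectrum (𝓞 F))) : Subgroup Fˣ :=
  ⨅ w ∈ T, Lp p F w 1

/-- The covering property of `T` relative to `S` ("Claim 1"): every integer `y` prime to `T`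
can be multiplied by a nonzero `S`-supported integer `u` such that `u * y` is a `p`-th power
residue modulo every `w ∈ T`. -/
def Cover (S T : Finset (HeightOneSpectrum (𝓞 F))) : Prop :=
  ∀ y : 𝓞 F, (∀ w ∈ T, y ∉ w.asIdeal) →
    ∃ u : 𝓞 F, u ≠ 0 ∧ (∀ v : HeightOneSpectrum (𝓞 F), v ∉ S → u ∉ v.asIdeal) ∧
      ∀ w ∈ T, ∃ c : 𝓞 F, u * y - c ^ p ∈ w.asIdeal

/-- `S₁` "generates the class group": every prime `q ∉ S₁` times an `S₁`-supported ideal is
principal, generated by `y` (so `ord_q y = 1` and `y` is a unit outside `S₁ ∪ {q}`). -/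
def GenSet (S₁ : Finset (HeightOneSpectrum (𝓞 F))) : Prop :=
  ∀ q : HeightOneSpectrum (𝓞 F), q ∉ S₁ →
    ∃ y : 𝓞 F, y ∈ q.asIdeal ∧ y ∉ q.asIdeal ^ 2 ∧
      ∀ v : HeightOneSpectrum (𝓞 F), v ∉ S₁ → v ≠ q → y ∉ v.asIdeal

end Fermat.Agent.S14.SecondIneq
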