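import Fermat.Agent.S14.SecondIneq.BasicLp
import Fermat.Agent.S14.SecondIneq.KummerReq
import Fermat.Agent.S14.Iface.Density
import Fermat.Agent.S14.Frob.API

/-!
# S14 / SecondIneq: a split prime at which a given element is not a `p`-th power residue
STATEMENT FROZEN.
-/

set_option autoImplicit false

namespace Fermat.Agent.S14.SecondIneq

open NumberField IsDedekindDomain

namespace SplitNonresAux

/-- The prime below a degree-one prime has the same absolute norm. -/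
theorem absNorm_under_eq {F M : Type*} [Field F] [NumberField F] [Field M] [NumberField M]
    [Algebra F M] (P : Ideal (𝓞 M)) (hP : P.IsPrime) (hN : (Ideal.absNorm P).Prime) :
    Ideal.absNorm (P.under (𝓞 F)) = Ideal.absNorm P := by
  have hinj : Function.Injective
      (Ideal.quotientMap P (algebraMap (𝓞 F) (𝓞 M))
        (le_refl (P.comap (algebraMap (𝓞 F) (𝓞 M))))) :=
    Ideal.quotientMap_injective
  have hdvd : Nat.card (𝓞 F ⧸ P.comap (algebraMap (𝓞 F) (𝓞 M))) ∣ Nat.card (𝓞 M ⧸ P) :=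
    AddSubgroup.card_dvd_of_injective
      (Ideal.quotientMap P (algebraMap (𝓞 F) (𝓞 M))
        (le_refl (P.comap (algebraMap (𝓞 F) (𝓞 M))))).toAddMonoidHom hinj
  have h1 : Ideal.absNorm (P.under (𝓞 F)) ∣ Ideal.absNorm P := by
    rw [Ideal.absNorm_apply, Ideal.absNorm_apply, Submodule.cardQuot_apply,
      Submodule.cardQuot_apply]
    exact hdvd
  rcases (Nat.dvd_prime hN).1 h1 with h | h
  · exfalso
    rw [Ideal.absNorm_eq_one_iff] at h
    exact (Ideal.IsPrime.under (𝓞 F) P).ne_top h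
  · exact h

/-- If `1 - ζ` lies in a prime ideal for a primitive `p`-th root of unity `ζ`, then so does `p`. -/
theorem natCast_mem_of_one_sub_mem {R : Type*} [CommRing R] [IsDomain R] {p : ℕ} (hp1 : 1 < p)
    {ζ : R} (hζ : IsPrimitiveRoot ζ p) (P : Ideal R) (h1 : 1 - ζ ∈ P) : ((p : ℕ) : R) ∈ P := by
  have hmk : Ideal.Quotient.mk P ζ = 1 := by
    have h := Ideal.Quotient.eq_zero_iff_mem.2 h1
    rw [map_sub, map_one, sub_eq_zero] at h
    exact h.symm
  have hsum := congrArg (Ideal.Quotient.mk P) (hζ.geom_sum_eq_zero hp1)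
  rw [map_sum] at hsum
  simp only [map_pow, hmk, one_pow, Finset.sum_const, Finset.card_range, map_zero,
    nsmul_eq_mul, mul_one] at hsum
  rw [← Ideal.Quotient.eq_zero_iff_mem, map_natCast]
  exact hsum

/-- The core of the argument, with the Kummer extension `M' = M(y^{1/p})` given. -/
theorem core {p : ℕ} [Fact p.Prime] (hp : p ≠ 2)
    (F M : Type*) [Field F] [NumberField F] [Field M] [NumberField M] [Algebra F M] [IsGalois F M]
    (hunr : UnramifiedEverywhere F M) (ζ : 𝓞 F) (hζ : IsPrimitiveRoot ζ p)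
    (S : Finset (HeightOneSpectrum (𝓞 F))) (y : 𝓞 F) (hy0 : y ≠ 0)
    (hyM : ∀ c : M, c ^ p ≠ ((algebraMap (𝓞 F) (𝓞 M) y : 𝓞 M) : M))
    (M' : Type*) [Field M'] [NumberField M'] [Algebra M M'] [IsGalois M M']
    (hdeg' : Module.finrank M M' = p) (β' : M')
    (hβ' : β' ^ p = algebraMap M M' ((algebraMap (𝓞 F) (𝓞 M) y : 𝓞 M) : M)) :
    ∃ w : HeightOneSpectrum (𝓞 F), w ∉ S ∧ ((p : ℕ) : 𝓞 F) ∉ w.asIdeal ∧
      SplitsCompletely F M w.asIdeal ∧ y ∉ w.asIdeal ∧ ∀ c : 𝓞 F, y - c ^ p ∉ w.asIdeal := by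
  classical
  have hpp : p.Prime := Fact.out
  obtain ⟨P, hP, hN, hNS, hns⟩ :=
    exists_prime_not_splitsCompletely M M' (by rw [hdeg']; exact hpp.one_lt)
      (({p} ∪ S.image (fun v => Ideal.absNorm v.asIdeal)) ∪
        (Ideal.absNorm (Ideal.span {y})).primeFactors)
  have hP0 : P ≠ ⊥ := by
    rintro rfl
    rw [Ideal.absNorm_bot] at hN
    exact Nat.not_prime_zero hN
  have hw₀N : Ideal.absNorm (P.under (𝓞 F)) = Ideal.absNorm P := absNorm_under_eq P hP hN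
  have hw₀prime : (P.under (𝓞 F)).IsPrime := Ideal.IsPrime.under (𝓞 F) P
  have hw₀0 : P.under (𝓞 F) ≠ ⊥ := by
    intro h
    rw [h, Ideal.absNorm_bot] at hw₀N
    rw [← hw₀N] at hN
    exact Nat.not_prime_zero hN
  have hwS : (⟨P.under (𝓞 F), hw₀prime, hw₀0⟩ : HeightOneSpectrum (𝓞 F)) ∉ S := by
    intro hwS
    apply hNS
    refine Finset.mem_union_left _ (Finset.mem_union_right _ ?_)
    exact Finset.mem_image.2 ⟨_, hwS, hw₀N⟩
  have hpw : ((p : ℕ) : 𝓞 F) ∉ P.under (𝓞 F) := by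
    intro hpw
    have hℓ : ((Ideal.absNorm (P.under (𝓞 F)) : ℕ) : 𝓞 F) ∈ P.under (𝓞 F) :=
      Ideal.absNorm_mem _
    rw [hw₀N] at hℓ
    have hne : p ≠ Ideal.absNorm P := by
      intro h
      apply hNS
      rw [← h]
      exact Finset.mem_union_left _ (Finset.mem_union_left _ (Finset.mem_singleton_self p))
    have hcop : Nat.Coprime p (Ideal.absNorm P) := (Nat.coprime_primes hpp hN).2 hne
    obtain ⟨u, v, huv⟩ := Nat.Coprime.isCoprime hcop
    have h1 : (1 : 𝓞 F) ∈ P.under (𝓞 F) := by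
      have h2 : (1 : 𝓞 F) =
          (u : 𝓞 F) * ((p : ℕ) : 𝓞 F) + (v : 𝓞 F) * ((Ideal.absNorm P : ℕ) : 𝓞 F) := by
        have h3 := congrArg (Int.cast : ℤ → 𝓞 F) huv
        push_cast at h3
        exact h3.symm
      rw [h2]
      exact Ideal.add_mem _ (Ideal.mul_mem_left _ _ hpw) (Ideal.mul_mem_left _ _ hℓ)
    exact hw₀prime.ne_top ((Ideal.eq_top_iff_one _).2 h1)
  have hyw : y ∉ P.under (𝓞 F) := by
    intro hyw
    apply hNS
    refine Finset.mem_union_right _ (Nat.mem_primeFactors.2 ⟨hN, ?_, ?_⟩)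
    · rw [← hw₀N]
      exact Ideal.absNorm_dvd_absNorm_of_le ((Ideal.span_singleton_le_iff_mem _).2 hyw)
    · rw [Ne, Ideal.absNorm_eq_zero_iff, Ideal.span_singleton_eq_bot]
      exact hy0
  have hsplit : SplitsCompletely F M (P.under (𝓞 F)) :=
    Frob.splitsCompletely_under_of_absNorm_prime F M P hP hN (hunr P hP hP0)
  have hζM : IsPrimitiveRoot (algebraMap (𝓞 F) (𝓞 M) ζ) p :=
    hζ.map_of_injective (RingOfIntegers.algebraMap.injective F M)
  have hpM : ((p : ℕ) : 𝓞 M) ∉ P := by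
    intro h
    apply hpw
    rw [Ideal.mem_comap, map_natCast]
    exact h
  have hn : (1 - algebraMap (𝓞 F) (𝓞 M) ζ) ^ p ∉ P ^ 1 := by
    rw [pow_one]
    intro h
    exact hpM (natCast_mem_of_one_sub_mem hpp.one_lt hζM P (hP.mem_of_pow_mem _ h))
  have hyP : algebraMap (𝓞 F) (𝓞 M) y ∉ P := fun h => hyw (Ideal.mem_comap.2 h)
  have hcM : ∀ c : 𝓞 M, algebraMap (𝓞 F) (𝓞 M) y - c ^ p ∉ P := by
    intro c hc
    apply hns
    exact KummerReq.K46 hp M M' (algebraMap (𝓞 F) (𝓞 M) ζ) hζM hdeg'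
      (algebraMap (𝓞 F) (𝓞 M) y) hyM β' hβ' P hP hP0 1 hn c hyP (by rwa [pow_one])
  refine ⟨⟨P.under (𝓞 F), hw₀prime, hw₀0⟩, hwS, hpw, hsplit, hyw, ?_⟩
  intro c hc
  apply hcM (algebraMap (𝓞 F) (𝓞 M) c)
  have h1 : algebraMap (𝓞 F) (𝓞 M) y - (algebraMap (𝓞 F) (𝓞 M) c) ^ p =
      algebraMap (𝓞 F) (𝓞 M) (y - c ^ p) := by
    rw [map_sub, map_pow]
  rw [h1]
  exact Ideal.mem_comap.1 hc

end SplitNonresAux

/-- `M = F(a^{1/p})` unramified.  If `x ∈ Fˣ` is not of the form `a ^ i * c ^ p`, there is a prime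
`w ∉ S`, `w ∤ p`, splitting completely in `M`, at which `x` is not a local `p`-th power
(to precision `1`).  (Density applied to `M(x^{1/p})/M`.) -/
theorem exists_split_nonresidue {p : ℕ} [Fact p.Prime] (hp : p ≠ 2)
    (F M : Type*) [Field F] [NumberField F] [Field M] [NumberField M] [Algebra F M] [IsGalois F M]
    (ζ : 𝓞 F) (hζ : IsPrimitiveRoot ζ p) (hdeg : Module.finrank F M = p)
    (hunr : UnramifiedEverywhere F M)
    (a : 𝓞 F) (α : M) (hα : α ^ p = algebraMap F M (a : F)) (ha : ∀ c : F, c ^ p ≠ (a : F))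
    (S : Finset (HeightOneSpectrum (𝓞 F))) (x : Fˣ)
    (hx : ∀ (i : ℕ) (c : F), (x : F) ≠ (a : F) ^ i * c ^ p) :
    ∃ w : HeightOneSpectrum (𝓞 F), w ∉ S ∧ ((p : ℕ) : 𝓞 F) ∉ w.asIdeal ∧
      SplitsCompletely F M w.asIdeal ∧ x ∉ Lp p F w 1 := by
  obtain ⟨y, b, hb0, hy0, hxy⟩ := exists_int_mul_pow p x
  have hbF : (b : F) ≠ 0 := RingOfIntegers.coe_ne_zero_iff.2 hb0
  have hy : ∀ (i : ℕ) (c : F), (y : F) ≠ (a : F) ^ i * c ^ p := by
    intro i c h
    apply hx i (c / (b : F))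
    rw [div_pow, ← mul_div_assoc, ← h, ← hxy, mul_div_assoc, div_self (pow_ne_zero p hbF),
      mul_one]
  have hyM : ∀ c : M, c ^ p ≠ ((algebraMap (𝓞 F) (𝓞 M) y : 𝓞 M) : M) := by
    intro c hc
    obtain ⟨i, c', h⟩ := KummerReq.K3 hp F M ζ hζ hdeg (a : F) α hα ha (y : F) ⟨c, hc⟩
    exact hy i c' h
  have hζM : IsPrimitiveRoot (algebraMap (𝓞 F) (𝓞 M) ζ) p :=
    hζ.map_of_injective (RingOfIntegers.algebraMap.injective F M)
  obtain ⟨M', _, _, _, hgal', hdeg', β', hβ'⟩ :=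
    KummerReq.K1 hp M (algebraMap (𝓞 F) (𝓞 M) ζ) hζM (algebraMap (𝓞 F) (𝓞 M) y) hyM
  obtain ⟨w, hwS, hpw, hsplit, hyw, hw⟩ :=
    SplitNonresAux.core hp F M hunr ζ hζ S y hy0 hyM M' hdeg' β' hβ'
  refine ⟨w, hwS, hpw, hsplit, ?_⟩
  intro hxL
  obtain ⟨xy, hxy'⟩ := exists_unit_of_int y hy0
  obtain ⟨ub, hub⟩ := exists_unit_of_int b hb0
  have hxyL : xy ∈ Lp p F w 1 := by
    have h1 : xy = x * ub ^ p := by
      ext
      rw [Units.val_mul, Units.val_pow_eq_pow_val, hub, hxy', hxy]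
    rw [h1]
    exact mul_mem hxL (PthPow_le_Lp p w 1 ((mem_PthPow_iff p _).2 ⟨ub, rfl⟩))
  obtain ⟨c, hc⟩ := (mem_Lp_iff_of_int p w 1 xy y hxy' hyw).1 hxyL
  rw [pow_one] at hc
  exact hw c hc

end Fermat.Agent.S14.SecondIneq
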