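import Fermat.Agent.S14.SecondIneq.SplitNonres
import Fermat.Agent.S14.SecondIneq.AbsGroup
import Fermat.Agent.S14.SecondIneq.Units
import Fermat.Agent.S14.SecondIneq.Local

/-!
# S14 / SecondIneq: the auxiliary primes `T` (index form)
STATEMENT FROZEN.
-/

set_option autoImplicit false

namespace Fermat.Agent.S14.SecondIneq

open NumberField IsDedekindDomain

namespace TChoiceAux

/-- In a commutative group, if `P` contains all `p`-th powers (here: `P` is the group of `p`-th
powers), then `P` has index at most `p` in `zpowers g ⊔ P`. -/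
theorem relIndex_zpowers_sup {G : Type*} [CommGroup G] (p : ℕ) (hp : 0 < p) (g : G) :
    ((powMonoidHom p : G →* G).range).relIndex
        (Subgroup.zpowers g ⊔ (powMonoidHom p : G →* G).range) ≠ 0 ∧
      ((powMonoidHom p : G →* G).range).relIndex
        (Subgroup.zpowers g ⊔ (powMonoidHom p : G →* G).range) ≤ p := by
  set P : Subgroup G := (powMonoidHom p : G →* G).range with hP
  set A : Subgroup G := Subgroup.zpowers g ⊔ P with hA
  have hmem : ∀ i : ℕ, g ^ i ∈ A := fun i =>
    Subgroup.mem_sup_left (Subgroup.pow_mem _ (Subgroup.mem_zpowers g) i)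
  let f : Fin p → (A ⧸ P.subgroupOf A) := fun i => QuotientGroup.mk ⟨g ^ (i : ℕ), hmem i⟩
  have hp0 : (p : ℤ) ≠ 0 := by exact_mod_cast hp.ne'
  have hf : Function.Surjective f := by
    intro q
    obtain ⟨⟨x, hx⟩, rfl⟩ := QuotientGroup.mk_surjective q
    obtain ⟨y, hy, z, hz, rfl⟩ := Subgroup.mem_sup.mp hx
    obtain ⟨k, rfl⟩ := Subgroup.mem_zpowers_iff.mp hy
    obtain ⟨t, rfl⟩ := hz
    have hr0 : 0 ≤ k % (p : ℤ) := Int.emod_nonneg k hp0
    have hrlt : k % (p : ℤ) < p := Int.emod_lt_of_pos k (by exact_mod_cast hp)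
    refine ⟨⟨(k % (p : ℤ)).toNat, by omega⟩, ?_⟩
    rw [QuotientGroup.eq, Subgroup.mem_subgroupOf]
    refine ⟨g ^ (k / (p : ℤ)) * t, ?_⟩
    have e1 : g ^ k = g ^ (k % (p : ℤ)) * (g ^ (k / (p : ℤ))) ^ p := by
      conv_lhs => rw [← Int.emod_add_mul_ediv k p]
      rw [zpow_add, zpow_mul', zpow_natCast]
    have e2 : g ^ (k % (p : ℤ)).toNat = g ^ (k % (p : ℤ)) := by
      rw [← zpow_natCast, Int.toNat_of_nonneg hr0]
    simp only [powMonoidHom_apply, Subgroup.coe_mul, Subgroup.coe_inv]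
    rw [e2, e1, mul_pow]
    group
  have hfin : Finite (A ⧸ P.subgroupOf A) := Finite.of_surjective f hf
  have hle : Nat.card (A ⧸ P.subgroupOf A) ≤ p := by
    have := Nat.card_le_card_of_surjective f hf
    rwa [Nat.card_fin] at this
  have hpos : 0 < Nat.card (A ⧸ P.subgroupOf A) := Nat.card_pos
  exact ⟨hpos.ne', hle⟩

end TChoiceAux

/-- There is a finite set `T` of primes outside `S`, not above `p`, splitting completely in `M`,
such that the residue conditions at `T` are independent on `S`-units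
(`[E_S : E_S ∩ Res T] = p ^ |T|`) and `|T| ≥ |S| + r - 1`. -/
theorem exists_T_index {p : ℕ} [Fact p.Prime] (hp : p ≠ 2)
    (F M : Type*) [Field F] [NumberField F] [Field M] [NumberField M] [Algebra F M] [IsGalois F M]
    (ζ : 𝓞 F) (hζ : IsPrimitiveRoot ζ p) (hdeg : Module.finrank F M = p)
    (hunr : UnramifiedEverywhere F M) (S : Finset (HeightOneSpectrum (𝓞 F))) :
    ∃ T : Finset (HeightOneSpectrum (𝓞 F)), Disjoint T S ∧
      (∀ w ∈ T, ((p : ℕ) : 𝓞 F) ∉ w.asIdeal ∧ SplitsCompletely F M w.asIdeal) ∧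
      (Res p F T).relIndex (SU F S) = p ^ T.card ∧
      S.card + Fintype.card (InfinitePlace F) ≤ T.card + 1 := by
  classical
  have hpp : p.Prime := Fact.out
  obtain ⟨a, α, hα, ha⟩ := KummerReq.K2 hp F M ζ hζ hdeg
  have ha0 : (a : F) ≠ 0 := by
    intro h0
    exact ha 0 (by rw [h0, zero_pow hpp.ne_zero])
  set a' : Fˣ := Units.mk0 (a : F) ha0 with ha'
  have hζF : IsPrimitiveRoot ((ζ : 𝓞 F) : F) p :=
    hζ.map_of_injective (f := algebraMap (𝓞 F) F) RingOfIntegers.coe_injective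
  obtain ⟨T, hT, hidx, hN⟩ := abs_T_choice (G := Fˣ) (ι := HeightOneSpectrum (𝓞 F)) p
    (S.card + Fintype.card (InfinitePlace F)) hpp (SU F S) (PthPow p F)
    (Subgroup.zpowers a' ⊔ PthPow p F) (fun w => Lp p F w 1)
    (fun w => w ∉ S ∧ ((p : ℕ) : 𝓞 F) ∉ w.asIdeal ∧ SplitsCompletely F M w.asIdeal)
    (sunit_index F ⟨_, hζF⟩ S)
    (fun w => PthPow_le_Lp p w 1)
    (by
      rintro w ⟨hwS, hpw, -⟩ K hK
      have hn : (1 - ζ) ^ p ∉ w.asIdeal ^ 1 := by
        rw [pow_one]
        intro h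
        have h1 : 1 - ζ ∈ w.asIdeal := w.isPrime.mem_of_pow_mem p h
        apply hpw
        have hsum : ((p : ℕ) : 𝓞 F) = ∑ i ∈ Finset.range p, (1 - ζ ^ i) := by
          rw [Finset.sum_sub_distrib, hζ.geom_sum_eq_zero hpp.one_lt]
          simp
        rw [hsum]
        refine Ideal.sum_mem _ fun i _ => ?_
        obtain ⟨c, hc⟩ := one_sub_dvd_one_sub_pow ζ i
        rw [hc]
        exact Ideal.mul_mem_right _ _ h1
      have hbound := local_index_bound F ζ hζ w 1 hn
      have hcard : Nat.card (𝓞 F ⧸ (w.asIdeal ^ 1 ⊔ Ideal.span {((p : ℕ) : 𝓞 F)})) = 1 := by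
        have htop : w.asIdeal ^ 1 ⊔ Ideal.span {((p : ℕ) : 𝓞 F)} = ⊤ := by
          rw [pow_one]
          by_contra hne
          have hw := w.isMaximal.eq_of_le hne le_sup_left
          apply hpw
          rw [hw]
          exact Ideal.mem_sup_right (Ideal.mem_span_singleton_self _)
        have : Subsingleton (𝓞 F ⧸ (w.asIdeal ^ 1 ⊔ Ideal.span {((p : ℕ) : 𝓞 F)})) :=
          Ideal.Quotient.subsingleton_iff.mpr htop
        exact Nat.card_unique
      rw [hcard, mul_one] at hbound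
      refine relIndex_eq_one_or_prime p hpp (Lp p F w 1) (Bp p F w) K ?_ hbound.1 hbound.2 ?_
      · intro x hx
        rw [mem_Bp_iff, (mem_SU_iff S x).mp (hK hx) w hwS]
        exact dvd_zero _
      · intro x _
        exact PthPow_le_Lp p w 1 ((mem_PthPow_iff p _).mpr ⟨x, rfl⟩))
    le_sup_right
    (TChoiceAux.relIndex_zpowers_sup p hpp.pos a')
    (by
      intro T x _ hxA
      have hx : ∀ (i : ℕ) (c : F), (x : F) ≠ (a : F) ^ i * c ^ p := by
        intro i c hxc
        have hc : c ≠ 0 := by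
          rintro rfl
          rw [zero_pow hpp.ne_zero, mul_zero] at hxc
          exact x.ne_zero hxc
        apply hxA
        have hxe : x = a' ^ i * (Units.mk0 c hc) ^ p := by
          apply Units.ext
          simp [hxc, ha']
        rw [hxe]
        exact Subgroup.mul_mem _
          (Subgroup.mem_sup_left (Subgroup.pow_mem _ (Subgroup.mem_zpowers a') i))
          (Subgroup.mem_sup_right ((mem_PthPow_iff p _).mpr ⟨Units.mk0 c hc, rfl⟩))
      obtain ⟨w, hw, hpw, hsplit, hxw⟩ :=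
        exists_split_nonresidue hp F M ζ hζ hdeg hunr a α hα ha (S ∪ T) x hx
      rw [Finset.mem_union, not_or] at hw
      exact ⟨w, hw.2, ⟨hw.1, hpw, hsplit⟩, hxw⟩)
  refine ⟨T, ?_, fun w hw => (hT w hw).2, hidx, hN⟩
  exact Finset.disjoint_left.mpr fun w hw hwS => (hT w hw).1 hwS

end Fermat.Agent.S14.SecondIneq
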